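import Fermat.Agent.S59.H659.Cyclo

/-!
# S59, piece G3 (helper659): the determinant condition

`isCoreCond_detIsCyclotomic p` : "the determinant is the `p`-adic cyclotomic character" is a
deformation condition.
-/

set_option autoImplicit false
set_option linter.unusedSectionVars false
set_option linter.style.haveILetI false

namespace Fermat.Agent.S59.H659

open Fermat.Agent.S53 Fermat.Agent.S56.H966 IsLocalRing Polynomial

theorem detIsCyclotomic_toAdic_iff {A : Type} [CommRing A] [IsLocalRing A] (r : GQ →* M2 A)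
    (hr : MatCont r) (p : ℕ) :
    (toAdic r hr).DetIsCyclotomic p ↔
      (p : A) ∈ maximalIdeal A ∧ ∀ σ : GQ, CycCong p σ (r σ).det 1 := by
  constructor
  · rintro ⟨h1, h2⟩
    refine ⟨h1, fun σ n a ha => ?_⟩
    have := h2 n σ a ha
    rwa [det_toAdic, ← mul_one (a : A)] at this
  · rintro ⟨h1, h2⟩
    refine ⟨h1, fun n σ a ha => ?_⟩
    have := h2 σ n a ha
    rwa [det_toAdic, ← mul_one (a : A)]

theorem det_mapRep {A B : Type} [CommRing A] [CommRing B] (φ : A →+* B) (r : GQ →* M2 A)
    (σ : GQ) : (mapRep φ r σ).det = φ (r σ).det := by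
  rw [mapRep_apply, RingHom.map_det]
  rfl

/-- The determinant condition is a deformation condition. -/
theorem isCoreCond_detIsCyclotomic (p : ℕ) (hp : p ≠ 0) :
    IsCoreCond (fun _A _ _ ρ => ρ.DetIsCyclotomic p) where
  of_isEquiv := fun _ _ _ _ _ he h => detIsCyclotomic_of_isEquiv he h
  baseChangeAlong := fun _ _ _ _ _ _ φ hφ _ h => detIsCyclotomic_baseChangeAlong φ hφ h
  of_fibre := by
    intro P A B _ _ _ _ _ _ _ _ _ pA pB hpA hpB hinj r hr hA hB
    rw [detIsCyclotomic_toAdic_iff] at hA hB ⊢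
    refine ⟨natCast_mem_maximalIdeal_of_map pA hA.1, fun σ => ?_⟩
    refine CycCong.of_fibre hp pA pB hinj (isNilpotent_natCast_of_mem hA.1)
      (isNilpotent_natCast_of_mem hB.1) ?_ ?_
    · have := hA.2 σ
      rwa [det_mapRep, ← map_one pA] at this
    · have := hB.2 σ
      rwa [det_mapRep, ← map_one pB] at this
  of_quotients := by
    intro A _ _ _ _ r hr h
    rw [detIsCyclotomic_toAdic_iff]
    have hloc : ∀ n : ℕ, n ≠ 0 → IsLocalRing (A ⧸ maximalIdeal A ^ n) := fun n hn =>
      isLocalRing_quotient _ (maximalIdeal_pow_ne_top n hn)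
    have hq : ∀ n : ℕ, n ≠ 0 → IsLocalHom (Ideal.Quotient.mk (maximalIdeal A ^ n)) :=
      fun n hn =>
        haveI := hloc n hn
        IsLocalHom.of_surjective _ Ideal.Quotient.mk_surjective
    have key : ∀ n : ℕ, ∀ hn : n ≠ 0,
        ((p : A ⧸ maximalIdeal A ^ n) ∈ @maximalIdeal (A ⧸ maximalIdeal A ^ n) _ (hloc n hn)) ∧
        ∀ σ : GQ, CycCong p σ (Ideal.Quotient.mk (maximalIdeal A ^ n) (r σ).det)
          (Ideal.Quotient.mk (maximalIdeal A ^ n) 1) := by
      intro n hn
      have h1 := h n hn (hloc n hn) (hq n hn)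
      rw [@detIsCyclotomic_toAdic_iff _ _ (hloc n hn)] at h1
      refine ⟨h1.1, fun σ => ?_⟩
      have := h1.2 σ
      rwa [det_mapRep, ← map_one (Ideal.Quotient.mk (maximalIdeal A ^ n))] at this
    refine ⟨?_, fun σ => CycCong.of_quotients fun n hn => (key n hn).2 σ⟩
    exact @natCast_mem_maximalIdeal_of_map _ _ _ _ _ (hloc 1 one_ne_zero)
      (Ideal.Quotient.mk (maximalIdeal A ^ 1)) p (key 1 one_ne_zero).1

end Fermat.Agent.S59.H659
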