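import Fermat.Agent.S59.H659.Basic

/-!
# S59, piece G3 (helper659): the unramified and the unipotent conditions

`isCoreCond_isUnramifiedAt q` and `isCoreCond_isUnipotentOnInertiaAt q`.
-/

set_option autoImplicit false
set_option linter.unusedSectionVars false
set_option linter.style.haveILetI false

namespace Fermat.Agent.S59.H659

open Fermat.Agent.S53 Fermat.Agent.S56.H966 IsLocalRing Polynomial

/-- Being unramified at `q` is a deformation condition. -/
theorem isCoreCond_isUnramifiedAt (q : ℕ) :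
    IsCoreCond (fun _A _ _ ρ => ρ.IsUnramifiedAt q) where
  of_isEquiv := fun _ _ _ _ _ he h => isUnramifiedAt_of_isEquiv he h
  baseChangeAlong := fun _ _ _ _ _ _ φ hφ _ h => isUnramifiedAt_baseChangeAlong φ hφ h
  of_fibre := by
    intro P A B _ _ _ _ _ _ _ _ _ pA pB hpA hpB hinj r hr hA hB 𝔓 h𝔓 σ hσ
    rw [toAdic_rho_eq_one_iff]
    have h1 := (toAdic_rho_eq_one_iff _ _ σ).mp (hA 𝔓 h𝔓 σ hσ)
    have h2 := (toAdic_rho_eq_one_iff _ _ σ).mp (hB 𝔓 h𝔓 σ hσ)
    rw [mapRep_apply] at h1 h2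
    refine mat_eq_of_fibre pA pB hinj ?_ ?_
    · rw [h1]; simp
    · rw [h2]; simp
  of_quotients := by
    intro A _ _ _ _ r hr h 𝔓 h𝔓 σ hσ
    rw [toAdic_rho_eq_one_iff]
    refine mat_eq_of_quotients fun n hn => ?_
    have hloc : IsLocalRing (A ⧸ maximalIdeal A ^ n) :=
      isLocalRing_quotient _ (maximalIdeal_pow_ne_top n hn)
    have hq : IsLocalHom (Ideal.Quotient.mk (maximalIdeal A ^ n)) :=
      IsLocalHom.of_surjective _ Ideal.Quotient.mk_surjective
    have h1 := (@toAdic_rho_eq_one_iff _ _ hloc _ _ σ).mp (h n hn hloc hq 𝔓 h𝔓 σ hσ)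
    rw [mapRep_apply] at h1
    rw [h1]; simp

/-- Having unipotent inertia at `q` is a deformation condition. -/
theorem isCoreCond_isUnipotentOnInertiaAt (q : ℕ) :
    IsCoreCond (fun _A _ _ ρ => ρ.IsUnipotentOnInertiaAt q) where
  of_isEquiv := fun _ _ _ _ _ he h => isUnipotentOnInertiaAt_of_isEquiv he h
  baseChangeAlong := fun _ _ _ _ _ _ φ hφ _ h => isUnipotentOnInertiaAt_baseChangeAlong φ hφ h
  of_fibre := by
    intro P A B _ _ _ _ _ _ _ _ _ pA pB hpA hpB hinj r hr hA hB 𝔓 h𝔓 σ hσ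
    rw [charpoly_toAdic]
    have h1 := hA 𝔓 h𝔓 σ hσ
    have h2 := hB 𝔓 h𝔓 σ hσ
    rw [charpoly_toAdic, mapRep_apply, Matrix.charpoly_map] at h1 h2
    refine poly_eq_of_fibre pA pB hinj ?_ ?_
    · rw [h1]; simp
    · rw [h2]; simp
  of_quotients := by
    intro A _ _ _ _ r hr h 𝔓 h𝔓 σ hσ
    rw [charpoly_toAdic]
    refine poly_eq_of_quotients fun n hn => ?_
    have hloc : IsLocalRing (A ⧸ maximalIdeal A ^ n) :=
      isLocalRing_quotient _ (maximalIdeal_pow_ne_top n hn)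
    have hq : IsLocalHom (Ideal.Quotient.mk (maximalIdeal A ^ n)) :=
      IsLocalHom.of_surjective _ Ideal.Quotient.mk_surjective
    have h1 := h n hn hloc hq 𝔓 h𝔓 σ hσ
    rw [@charpoly_toAdic _ _ hloc, mapRep_apply, Matrix.charpoly_map] at h1
    rw [h1]; simp

end Fermat.Agent.S59.H659
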