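import Fermat.Agent.S59.H659.StrictOrd
import Fermat.Agent.S59.H659.DetCyc
import Fermat.Agent.S59.H659.Pointwise
import Fermat.Prelude.Def_GaloisRep_Flat

/-!
# S59, piece G3 (helper659): the Prelude's conditions are deformation conditions

For an odd prime `p`, a local ring `𝒪` with finite residue field and finite sets `S`, `Smin`:

* `isDeformationCondition_strictOrdinaryCondition`,
  `isDeformationCondition_minimalStrictOrdinaryCondition`,
  `isDeformationCondition_strictOrdinary_unipotent` (the condition of S56);
* `isDeformationCondition_flatCondition`, `isDeformationCondition_minimalFlatCondition`,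
  `isDeformationCondition_flat_unipotent`, assuming that flatness at `p` alone is a deformation
  condition.
-/

set_option autoImplicit false
set_option linter.unusedSectionVars false
set_option linter.style.haveILetI false

namespace Fermat.Agent.S59.H659

open Fermat.Agent.S53 IsLocalRing

/-- Being unramified outside `S` is a deformation condition. -/
theorem isCoreCond_unramifiedOutside (S : Finset ℕ) :
    IsCoreCond (fun _A _ _ ρ => ∀ q : ℕ, q.Prime → q ∉ S → ρ.IsUnramifiedAt q) :=
  IsCoreCond.forall fun q => IsCoreCond.forall fun _ => IsCoreCond.forall fun _ =>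
    isCoreCond_isUnramifiedAt q

/-- Having unipotent inertia at the primes of `Smin` different from `p` is a deformation
condition. -/
theorem isCoreCond_unipotentOn (p : ℕ) (Smin : Finset ℕ) :
    IsCoreCond (fun _A _ _ ρ => ∀ q ∈ Smin, q.Prime → q ≠ p → ρ.IsUnipotentOnInertiaAt q) :=
  IsCoreCond.forall fun q => IsCoreCond.forall fun _ => IsCoreCond.forall fun _ =>
    IsCoreCond.forall fun _ => isCoreCond_isUnipotentOnInertiaAt q

/-- The determinant condition together with "unramified outside `S`". -/
theorem isCoreCond_det_unramified (p : ℕ) (hp : p ≠ 0) (S : Finset ℕ) :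
    IsCoreCond (fun _A _ _ ρ => ρ.DetIsCyclotomic p ∧
      ∀ q : ℕ, q.Prime → q ∉ S → ρ.IsUnramifiedAt q) :=
  (isCoreCond_detIsCyclotomic p hp).and (isCoreCond_unramifiedOutside S)

theorem isCoreCond_strictOrdinaryCondition (p : ℕ) (hp : p.Prime) (hp2 : p ≠ 2)
    (S : Finset ℕ) :
    IsCoreCond (fun _A _ _ ρ => ρ.DetIsCyclotomic p ∧ ρ.IsStrictOrdinaryAt p ∧
      ∀ q : ℕ, q.Prime → q ∉ S → ρ.IsUnramifiedAt q) :=
  (isCoreCond_detIsCyclotomic p hp.ne_zero).and
    ((isCoreCond_isStrictOrdinaryAt p hp hp2).and (isCoreCond_unramifiedOutside S))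

section Main

variable (𝒪 : Type) [CommRing 𝒪] [IsLocalRing 𝒪] [Finite (ResidueField 𝒪)]
  (p : ℕ) (hp : p.Prime) (hp2 : p ≠ 2) (S Smin : Finset ℕ)

include hp hp2

/-- The strictly ordinary condition of the Prelude is a deformation condition. -/
theorem isDeformationCondition_strictOrdinaryCondition :
    GaloisRep.IsDeformationCondition 𝒪 (GaloisRep.strictOrdinaryCondition 𝒪 p S) :=
  (isCoreCond_strictOrdinaryCondition p hp hp2 S).isDeformationCondition 𝒪

/-- The condition of S56 (strictly ordinary case): strictly ordinary with respect to `S` and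
unipotent inertia at the primes of `Smin` different from `p`. -/
theorem isDeformationCondition_strictOrdinary_unipotent :
    GaloisRep.IsDeformationCondition 𝒪 (fun _A _ _ _ ρ =>
      GaloisRep.strictOrdinaryCondition 𝒪 p S ρ ∧
        ∀ q ∈ Smin, q.Prime → q ≠ p → ρ.IsUnipotentOnInertiaAt q) :=
  ((isCoreCond_strictOrdinaryCondition p hp hp2 S).and
    (isCoreCond_unipotentOn p Smin)).isDeformationCondition 𝒪

/-- The minimal strictly ordinary condition of the Prelude is a deformation condition. -/
theorem isDeformationCondition_minimalStrictOrdinaryCondition :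
    GaloisRep.IsDeformationCondition 𝒪 (GaloisRep.minimalStrictOrdinaryCondition 𝒪 p S) :=
  isDeformationCondition_strictOrdinary_unipotent 𝒪 p hp hp2 S S

omit hp2

variable (hflat : GaloisRep.IsDeformationCondition 𝒪 (fun _A _ _ _ ρ => ρ.IsFlatAt p))

include hflat

/-- The flat condition of the Prelude is a deformation condition, if flatness at `p` is. -/
theorem isDeformationCondition_flatCondition :
    GaloisRep.IsDeformationCondition 𝒪 (GaloisRep.flatCondition 𝒪 p S) := by
  have h1 := isDeformationCondition_and 𝒪
    ((isCoreCond_detIsCyclotomic p hp.ne_zero).isDeformationCondition 𝒪)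
    (isDeformationCondition_and 𝒪 hflat
      ((isCoreCond_unramifiedOutside S).isDeformationCondition 𝒪))
  exact h1

/-- The condition of S56 (flat case). -/
theorem isDeformationCondition_flat_unipotent :
    GaloisRep.IsDeformationCondition 𝒪 (fun _A _ _ _ ρ =>
      GaloisRep.flatCondition 𝒪 p S ρ ∧
        ∀ q ∈ Smin, q.Prime → q ≠ p → ρ.IsUnipotentOnInertiaAt q) :=
  isDeformationCondition_and 𝒪 (isDeformationCondition_flatCondition 𝒪 p hp S hflat)
    ((isCoreCond_unipotentOn p Smin).isDeformationCondition 𝒪)

/-- The minimal flat condition of the Prelude is a deformation condition, if flatness at `p`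
is. -/
theorem isDeformationCondition_minimalFlatCondition :
    GaloisRep.IsDeformationCondition 𝒪 (GaloisRep.minimalFlatCondition 𝒪 p S) :=
  isDeformationCondition_flat_unipotent 𝒪 p hp S S hflat

end Main

end Fermat.Agent.S59.H659
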