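import Fermat.Agent.S59.H779.FlatDC
import Fermat.Agent.S19.H135.Closure
import Fermat.Agent.S19.H15.Ord
import Fermat.Agent.S59.H659.Conditions

/-!
# S59, piece G3 (helper659): the FLAT conditions are deformation conditions — unconditional

`H779.isDeformationCondition_isFlatAt` reduces "flatness at `p` is a deformation condition" to the
closure of Hopf models under subquotients and binary products.  Both closure statements are
theorems of cell A3 (`S19.H135.hopfModel_of_subquotient`, `S19.H135.hopfModel_prod`, with the ORD
block `S19.H15.ordStatement`).  Hence, for every prime `p` (and every local ring `𝒪` with finite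
residue field):

* `hopfSubquot_closed`, `hopfProd_closed` : `H779.HopfSubquotSpec p`, `H779.HopfProdSpec p`;
* `isDeformationCondition_isFlatAt_closed`;
* `isDeformationCondition_flatCondition_closed`,
  `isDeformationCondition_minimalFlatCondition_closed`,
  `isDeformationCondition_flat_unipotent_closed` (the flat condition of S56).
-/

set_option autoImplicit false
set_option linter.unusedSectionVars false

namespace Fermat.Agent.S59.H659

open Fermat.Agent.S19 IsLocalRing

/-- Hopf models over `ℤ_(p)` are closed under equivariant subquotients. -/
theorem hopfSubquot_closed (p : ℕ) [Fact p.Prime] : H779.HopfSubquotSpec p := by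
  intro M M' N _ _ _ actM actM' actN i q hi hq hie hqe h
  exact H135.hopfModel_of_subquotient H15.ordStatement h i hi hie q hq hqe

/-- Hopf models over `ℤ_(p)` are closed under binary products. -/
theorem hopfProd_closed (p : ℕ) [Fact p.Prime] : H779.HopfProdSpec p := by
  intro M M' _ _ actM actM' h h'
  exact H135.hopfModel_prod H15.ordStatement h h'

section Main

variable (𝒪 : Type) [CommRing 𝒪] [IsLocalRing 𝒪] [Finite (ResidueField 𝒪)]
  (p : ℕ) (hp : p.Prime) (S Smin : Finset ℕ)

include hp

/-- **Flatness at `p` is a deformation condition.** -/
theorem isDeformationCondition_isFlatAt_closed :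
    GaloisRep.IsDeformationCondition 𝒪
      (fun ⦃A : Type⦄ [CommRing A] [IsLocalRing A] [Algebra 𝒪 A] (ρ : GaloisRepAdic A) =>
        ρ.IsFlatAt p) :=
  haveI : Fact p.Prime := ⟨hp⟩
  H779.isDeformationCondition_isFlatAt 𝒪 (hopfSubquot_closed p) (hopfProd_closed p)

/-- The flat condition of the Prelude is a deformation condition. -/
theorem isDeformationCondition_flatCondition_closed :
    GaloisRep.IsDeformationCondition 𝒪 (GaloisRep.flatCondition 𝒪 p S) :=
  isDeformationCondition_flatCondition 𝒪 p hp S (isDeformationCondition_isFlatAt_closed 𝒪 p hp)

/-- The condition of S56 (flat case): flat with respect to `S` and unipotent inertia at the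
primes of `Smin` different from `p`. -/
theorem isDeformationCondition_flat_unipotent_closed :
    GaloisRep.IsDeformationCondition 𝒪 (fun _A _ _ _ ρ =>
      GaloisRep.flatCondition 𝒪 p S ρ ∧
        ∀ q ∈ Smin, q.Prime → q ≠ p → ρ.IsUnipotentOnInertiaAt q) :=
  isDeformationCondition_flat_unipotent 𝒪 p hp S Smin
    (isDeformationCondition_isFlatAt_closed 𝒪 p hp)

/-- The minimal flat condition of the Prelude is a deformation condition. -/
theorem isDeformationCondition_minimalFlatCondition_closed :
    GaloisRep.IsDeformationCondition 𝒪 (GaloisRep.minimalFlatCondition 𝒪 p S) :=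
  isDeformationCondition_minimalFlatCondition 𝒪 p hp S
    (isDeformationCondition_isFlatAt_closed 𝒪 p hp)

end Main

end Fermat.Agent.S59.H659
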