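import Fermat.Agent.S59.H659.Basic
import Fermat.Agent.S14.H894.Cyclo

/-!
# S59, piece G3 (helper659): cyclotomic congruences

* `IsCycExp N σ a` : `σ` acts on the `N`-th roots of unity of `ℚ̄` by `μ ↦ μ ^ a`;
  existence (`exists_isCycExp`) and uniqueness modulo `N` (`IsCycExp.modEq`).
* `CycCong p σ d z` : the congruences `d ≡ a z` modulo `pⁿ` for all cyclotomic exponents `a` of
  `σ` at the levels `pⁿ` ("`d = ε(σ) z`"), as they occur in the Prelude's `DetIsCyclotomic` and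
  `IsStrictOrdinaryAt`; they are stable under ring homomorphisms (`CycCong.map`), descend along
  jointly injective pairs of homomorphisms to rings in which `p` is nilpotent
  (`CycCong.of_fibre`) and from the quotients `A ⧸ 𝔪ⁿ` (`CycCong.of_quotients`).
* `exists_inertia_cycExp_ne_one` : for an odd prime `p` the inertia group of a place of `ℚ̄`
  over `p` acts non-trivially on the `p`-th roots of unity.
-/

set_option autoImplicit false
set_option linter.unusedSectionVars false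
set_option linter.style.haveILetI false

namespace Fermat.Agent.S59.H659

open Fermat.Agent.S53 IsLocalRing Polynomial

/-- `σ` acts on the `N`-th roots of unity by `μ ↦ μ ^ a`. -/
def IsCycExp (N : ℕ) (σ : GQ) (a : ℕ) : Prop :=
  ∀ μ : AlgebraicClosure ℚ, μ ^ N = 1 → σ μ = μ ^ a

theorem exists_isCycExp (N : ℕ) (hN : N ≠ 0) (σ : GQ) : ∃ a : ℕ, IsCycExp N σ a := by
  haveI : NeZero N := ⟨hN⟩
  refine ⟨(modularCyclotomicCharacter.toFun N (σ : AlgebraicClosure ℚ ≃+* AlgebraicClosure ℚ)).val,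
    fun μ hμ => ?_⟩
  have hu : IsUnit μ := IsUnit.of_pow_eq_one hμ hN
  have hmem : hu.unit ∈ rootsOfUnity N (AlgebraicClosure ℚ) := by
    rw [mem_rootsOfUnity]
    apply Units.ext
    rw [Units.val_pow_eq_pow_val, IsUnit.unit_spec, hμ, Units.val_one]
  have := modularCyclotomicCharacter.toFun_spec'
    (σ : AlgebraicClosure ℚ ≃+* AlgebraicClosure ℚ) hmem
  simpa using this

theorem IsCycExp.of_dvd {N N' : ℕ} (h : N ∣ N') {σ : GQ} {a : ℕ} (ha : IsCycExp N' σ a) :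
    IsCycExp N σ a := by
  intro μ hμ
  obtain ⟨c, rfl⟩ := h
  exact ha μ (by rw [pow_mul, hμ, one_pow])

theorem IsCycExp.modEq {N : ℕ} (hN : N ≠ 0) {σ : GQ} {a a' : ℕ} (h : IsCycExp N σ a)
    (h' : IsCycExp N σ a') : a ≡ a' [MOD N] := by
  haveI : NeZero N := ⟨hN⟩
  obtain ⟨ζ, hζ⟩ := HasEnoughRootsOfUnity.exists_primitiveRoot (AlgebraicClosure ℚ) N
  have h1 : ζ ^ a = ζ ^ a' := by rw [← h ζ hζ.pow_eq_one, ← h' ζ hζ.pow_eq_one]
  have hfin : IsOfFinOrder ζ := isOfFinOrder_iff_pow_eq_one.mpr ⟨N, Nat.pos_of_ne_zero hN,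
    hζ.pow_eq_one⟩
  have h2 := hfin.pow_eq_pow_iff_modEq.mp h1
  rwa [← hζ.eq_orderOf] at h2

/-- The difference of two cyclotomic exponents at level `N` is divisible by `N` in any ring. -/
theorem IsCycExp.sub_mem {N : ℕ} (hN : N ≠ 0) {σ : GQ} {a a' : ℕ} (h : IsCycExp N σ a)
    (h' : IsCycExp N σ a') (A : Type) [CommRing A] :
    (a : A) - (a' : A) ∈ Ideal.span {((N : ℕ) : A)} := by
  have h1 := (Int.natCast_modEq_iff.mpr (h'.modEq hN h)).dvd
  obtain ⟨c, hc⟩ := h1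
  rw [Ideal.mem_span_singleton']
  refine ⟨(c : A), ?_⟩
  have : ((a : ℤ) - (a' : ℤ) : ℤ) = N * c := hc
  have h2 := congrArg (Int.cast : ℤ → A) this
  push_cast at h2
  rw [h2, mul_comm]

/-- The congruences `d ≡ ε(σ) z` modulo all powers of `p`. -/
def CycCong (p : ℕ) (σ : GQ) {A : Type} [CommRing A] (d z : A) : Prop :=
  ∀ n a : ℕ, (∀ μ : AlgebraicClosure ℚ, μ ^ p ^ n = 1 → σ μ = μ ^ a) →
    d - (a : A) * z ∈ Ideal.span {((p ^ n : ℕ) : A)}

theorem CycCong.map {p : ℕ} {σ : GQ} {A B : Type} [CommRing A] [CommRing B] (φ : A →+* B)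
    {d z : A} (h : CycCong p σ d z) : CycCong p σ (φ d) (φ z) := by
  intro n a ha
  have h1 := Ideal.mem_map_of_mem φ (h n a ha)
  rw [Ideal.map_span, Set.image_singleton, map_natCast, map_sub, map_mul, map_natCast] at h1
  exact h1

/-- If `p ^ N = 0` in `A` and `d ≡ ε(σ) z`, then `d = a z` for every exponent `a` of level
`p ^ N`. -/
theorem CycCong.eq_of_pow_eq_zero {p : ℕ} {σ : GQ} {A : Type} [CommRing A] {d z : A}
    (h : CycCong p σ d z) {N : ℕ} (hN : (p : A) ^ N = 0) {a : ℕ} (ha : IsCycExp (p ^ N) σ a) :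
    d = (a : A) * z := by
  have h1 := h N a ha
  rw [Nat.cast_pow, hN, Ideal.span_singleton_eq_bot.mpr rfl, Ideal.mem_bot, sub_eq_zero] at h1
  exact h1

/-- If `p ^ N = 0` in `A` and `d = a z` for one exponent `a` of level `p ^ N`, then
`d ≡ ε(σ) z`. -/
theorem CycCong.of_eq {p : ℕ} (hp : p ≠ 0) {σ : GQ} {A : Type} [CommRing A] {d z : A}
    {N : ℕ} (hN : (p : A) ^ N = 0) {a : ℕ} (ha : IsCycExp (p ^ N) σ a) (h : d = (a : A) * z) :
    CycCong p σ d z := by
  intro n b hb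
  have hb' : IsCycExp (p ^ n) σ b := hb
  rw [h, ← sub_mul]
  refine Ideal.mul_mem_right _ _ ?_
  rcases le_total n N with hnN | hNn
  · exact (ha.of_dvd (pow_dvd_pow p hnN)).sub_mem (pow_ne_zero _ hp) hb' A
  · have h1 := ha.sub_mem (pow_ne_zero _ hp) (hb'.of_dvd (pow_dvd_pow p hNn)) A
    rw [Nat.cast_pow, hN, Ideal.span_singleton_eq_bot.mpr rfl, Ideal.mem_bot] at h1
    rw [h1]
    exact Ideal.zero_mem _

/-- Descent of the cyclotomic congruences along a jointly injective pair of homomorphisms to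
rings in which `p` is nilpotent. -/
theorem CycCong.of_fibre {p : ℕ} (hp : p ≠ 0) {σ : GQ} {P A B : Type} [CommRing P] [CommRing A]
    [CommRing B] (pA : P →+* A) (pB : P →+* B)
    (hinj : Function.Injective (fun x => (pA x, pB x)))
    (hpA : IsNilpotent (p : A)) (hpB : IsNilpotent (p : B)) {d z : P}
    (hA : CycCong p σ (pA d) (pA z)) (hB : CycCong p σ (pB d) (pB z)) : CycCong p σ d z := by
  obtain ⟨N₁, hN₁⟩ := hpA
  obtain ⟨N₂, hN₂⟩ := hpB
  set N := N₁ + N₂ with hN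
  have hNA : (p : A) ^ N = 0 := by rw [hN, pow_add, hN₁, zero_mul]
  have hNB : (p : B) ^ N = 0 := by rw [hN, pow_add, hN₂, mul_zero]
  have hNP : (p : P) ^ N = 0 :=
    eq_zero_of_fibre pA pB hinj (by rw [map_pow, map_natCast, hNA])
      (by rw [map_pow, map_natCast, hNB])
  obtain ⟨a, ha⟩ := exists_isCycExp (p ^ N) (pow_ne_zero _ hp) σ
  refine CycCong.of_eq hp hNP ha (eq_of_fibre pA pB hinj ?_ ?_)
  · rw [map_mul, map_natCast]
    exact hA.eq_of_pow_eq_zero hNA ha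
  · rw [map_mul, map_natCast]
    exact hB.eq_of_pow_eq_zero hNB ha

/-- Descent of the cyclotomic congruences from the quotients `A ⧸ 𝔪ⁿ`. -/
theorem CycCong.of_quotients {p : ℕ} {σ : GQ} {A : Type} [CommRing A] [IsLocalRing A]
    [IsNoetherianRing A] {d z : A}
    (h : ∀ n : ℕ, n ≠ 0 → CycCong p σ (Ideal.Quotient.mk (maximalIdeal A ^ n) d)
      (Ideal.Quotient.mk (maximalIdeal A ^ n) z)) : CycCong p σ d z := by
  intro n a ha
  refine mem_of_quotients _ fun k hk => ?_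
  have h1 := h k hk n a ha
  rw [Ideal.map_span, Set.image_singleton, map_natCast, map_sub, map_mul, map_natCast]
  exact h1

/-- In an Artinian local ring with residue characteristic `p`, `p` is nilpotent. -/
theorem isNilpotent_natCast_of_mem {A : Type} [CommRing A] [IsLocalRing A] [IsArtinianRing A]
    {p : ℕ} (h : (p : A) ∈ maximalIdeal A) : IsNilpotent (p : A) := by
  obtain ⟨n, hn⟩ := exists_maximalIdeal_pow_eq_bot_of_isArtinianRing A
  refine ⟨n, ?_⟩
  have := Ideal.pow_mem_pow h n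
  rwa [hn, Ideal.mem_bot] at this

/-- **Total ramification of `ℚ(ζ_p)` at `p`.** For an odd prime `p` and a place of `ℚ̄` over
`p`, some element of the inertia group acts on the `p`-th roots of unity by an exponent
`a ≢ 1 mod p`. -/
theorem exists_inertia_cycExp_ne_one (p : ℕ) (hp : p.Prime) (hp2 : p ≠ 2)
    (𝔓 : ValuationSubring (AlgebraicClosure ℚ)) (h𝔓 : 𝔓.LiesOverPrime p) :
    ∃ σ ∈ 𝔓.inertiaSubgroupIn ℚ, ∀ a : ℕ, IsCycExp p σ a → ¬ a ≡ 1 [MOD p] := by
  haveI : NeZero p := ⟨hp.ne_zero⟩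
  obtain ⟨ζ, hζ⟩ := HasEnoughRootsOfUnity.exists_primitiveRoot (AlgebraicClosure ℚ) p
  -- an automorphism moving `ζ`
  have hζ2 : ζ ^ 2 ≠ ζ := by
    intro h
    have h1 : ζ ^ 2 = ζ ^ 1 := by rw [h, pow_one]
    have h2 := hζ.pow_inj (i := 2) (j := 1)
      (lt_of_le_of_ne hp.two_le (Ne.symm hp2)) hp.one_lt h1
    omega
  have hζ2' : IsPrimitiveRoot (ζ ^ 2) p := by
    refine hζ.pow_of_coprime 2 ?_
    exact (Nat.coprime_primes Nat.prime_two hp).mpr (Ne.symm hp2)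
  obtain ⟨g, hg⟩ : ∃ g : GQ, g ζ = ζ ^ 2 := by
    haveI := Fermat.Agent.S54.isGalois_algebraicClosure_rat
    have hirr : Irreducible (cyclotomic p ℚ) := cyclotomic.irreducible_rat hp.pos
    have hmin1 : minpoly ℚ ζ = cyclotomic p ℚ :=
      (hζ.minpoly_eq_cyclotomic_of_irreducible hirr).symm
    have hmin2 : minpoly ℚ (ζ ^ 2) = cyclotomic p ℚ :=
      (hζ2'.minpoly_eq_cyclotomic_of_irreducible hirr).symm
    have hconj : IsConjRoot ℚ (ζ ^ 2) ζ := by
      rw [IsConjRoot, hmin1, hmin2]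
    obtain ⟨g, hg⟩ := (isConjRoot_iff_exists_algEquiv (K := ℚ) (L := AlgebraicClosure ℚ)
      (x := ζ ^ 2) (y := ζ)).mp hconj
    exact ⟨g, hg⟩
  have hconj : ∀ τ : GQ, (∀ x ∈ (⊥ : IntermediateField ℚ (AlgebraicClosure ℚ)), τ x = x) →
      𝔓.valuation (τ (ζ - 1)) = 𝔓.valuation (ζ - 1) := by
    intro τ _
    have hτζ : IsPrimitiveRoot (τ ζ) p := hζ.map_of_injective τ.injective
    rw [map_sub, map_one]
    exact Fermat.Agent.S14.H894.valuation_sub_one_eq_of_mem_primitiveRoots 𝔓 p hp ζ hζ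
      ((mem_primitiveRoots hp.pos).2 hτζ)
  have hbot : ∀ x ∈ (⊥ : IntermediateField ℚ (AlgebraicClosure ℚ)), g x = x := by
    intro x hx
    obtain ⟨q, rfl⟩ := IntermediateField.mem_bot.1 hx
    exact g.commutes q
  obtain ⟨σ, hσ, -, hσγ⟩ := Fermat.Agent.S14.H894.exists_inertia_eq_on_adjoin 𝔓 p hp h𝔓 ⊥
    (ζ - 1) (Fermat.Agent.S14.H894.cycloShift p) (Fermat.Agent.S14.H894.cycloShift_monic p)
    (Fermat.Agent.S14.H894.cycloShift_aeval p hp ζ hζ)
    (Fermat.Agent.S14.H894.cyclo_indep 𝔓 p hp h𝔓 ζ hζ) hconj g hbot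
  have hσζ : σ ζ = ζ ^ 2 := by
    have := hσγ
    rw [map_sub, map_sub, map_one, map_one] at this
    rw [← hg]
    exact sub_left_injective this
  refine ⟨σ, hσ, fun a ha hcon => hζ2 ?_⟩
  have hfin : IsOfFinOrder ζ := isOfFinOrder_iff_pow_eq_one.mpr ⟨p, hp.pos, hζ.pow_eq_one⟩
  have h1 : ζ ^ a = ζ ^ 1 := by
    rw [hfin.pow_eq_pow_iff_modEq, ← hζ.eq_orderOf]
    exact hcon
  rw [← hσζ, ha ζ hζ.pow_eq_one, h1, pow_one]

end Fermat.Agent.S59.H659
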