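import Fermat.Agent.S59.H659.SOBridge
import Fermat.Agent.S59.H659.DetCyc
import Fermat.Agent.S59.H659.Conditions

/-!
# S59, piece G3 / cell COND (helper659): the ORDINARY condition (type `.ord`)

The Prelude's `GaloisRepAdic.IsOrdinaryAt p` (a line stable under the decomposition group with
trivial inertia action on the quotient) is not a deformation condition by itself, but it is one
together with "the determinant is the `p`-adic cyclotomic character" (`p` odd): the determinant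
forces the inertia group to act on the line by the cyclotomic character, so the line is unique
(it is spanned by a column of `r σ₀ - 1` for an inertial `σ₀` with `ε(σ₀) ≢ 1 mod p`).

* `IsOStd 𝔓 r` : ordinary standard form of a matrix representation at the place `𝔓`;
* `isOrdinaryAt_toAdic_iff`;
* `isCoreCond_det_isOrdinaryAt p` : `ρ ↦ ρ.DetIsCyclotomic p ∧ ρ.IsOrdinaryAt p` is a core
  condition (`p` an odd prime);
* `isDeformationCondition_ordinaryCondition`, `isDeformationCondition_ordinary_unipotent`,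
  `isDeformationCondition_minimalOrdinaryCondition`.
-/

set_option autoImplicit false
set_option linter.unusedSectionVars false
set_option linter.style.haveILetI false

namespace Fermat.Agent.S59.H659

open Fermat.Agent.S53 Fermat.Agent.S56.H966 IsLocalRing Polynomial
open scoped TensorProduct

/-! ### Base change and invariance under equivalence -/

section BC

variable {A : Type} [CommRing A] [IsLocalRing A] {B : Type} [CommRing B] [IsLocalRing B]

theorem isOrdinaryAt_baseChangeAlong (φ : A →+* B) (hφ : IsLocalHom φ)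
    {ρ : GaloisRepAdic A} {p : ℕ} (h : ρ.IsOrdinaryAt p) :
    (ρ.baseChangeAlong φ hφ).IsOrdinaryAt p := by
  letI : Algebra A B := φ.toAlgebra
  intro P hP
  obtain ⟨L, ⟨b, rfl⟩, hD, hI⟩ := h P hP
  refine ⟨(Submodule.span B {(1 : B) ⊗ₜ[A] b 0} : Submodule B (B ⊗[A] ρ.V)),
    ⟨b.baseChange B, span_eq_span_baseChange φ b⟩, ?_, ?_⟩
  · intro σ hσ v hv
    exact baseChange_mem_span_of_mem φ (b 0) (ρ.ρ σ) (hD σ hσ) v hv
  · intro σ hσ (w : B ⊗[A] ρ.V)
    have := baseChange_sub_smul_mem φ (b 0) (ρ.ρ σ) 1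
      (fun v => by rw [one_smul]; exact hI σ hσ v) w
    rw [map_one, one_smul] at this
    exact this

theorem isOrdinaryAt_of_isEquiv {ρ₁ ρ₂ : GaloisRepAdic A} (he : ρ₁.IsEquiv ρ₂) {p : ℕ}
    (h : ρ₁.IsOrdinaryAt p) : ρ₂.IsOrdinaryAt p := by
  obtain ⟨e⟩ := he
  intro P hP
  obtain ⟨L, ⟨b, rfl⟩, hD, hI⟩ := h P hP
  have hmem : ∀ {u : ρ₁.V}, u ∈ Submodule.span A {b 0} →
      e.toLinearEquiv u ∈ Submodule.span A {e.toLinearEquiv (b 0)} := by
    intro u hu
    obtain ⟨a, rfl⟩ := Submodule.mem_span_singleton.mp hu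
    rw [map_smul]
    exact Submodule.smul_mem _ _ (Submodule.mem_span_singleton_self _)
  refine ⟨Submodule.span A {e.toLinearEquiv (b 0)}, ⟨b.map e.toLinearEquiv, ?_⟩, ?_, ?_⟩
  · rw [Module.Basis.map_apply]
  · intro σ hσ v hv
    obtain ⟨a, rfl⟩ := Submodule.mem_span_singleton.mp hv
    rw [map_smul, ← e.map_apply]
    exact Submodule.smul_mem _ _ (hmem (hD σ hσ _ (Submodule.mem_span_singleton_self _)))
  · intro σ hσ w
    have := hmem (hI σ hσ (e.toLinearEquiv.symm w))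
    rwa [map_sub, e.map_apply, LinearEquiv.apply_symm_apply] at this

end BC

/-! ### Ordinary standard form -/

/-- Ordinary standard form at the place `𝔓`: the decomposition group acts by upper triangular
matrices `[[x, *], [0, z]]`, with `z = 1` on inertia. -/
structure IsOStd (𝔓 : ValuationSubring (AlgebraicClosure ℚ)) {A : Type} [CommRing A]
    (r : GQ →* M2 A) : Prop where
  dec : ∀ σ ∈ 𝔓.decompositionSubgroup ℚ, r σ 1 0 = 0
  inert : ∀ σ ∈ 𝔓.inertiaSubgroupIn ℚ, r σ 1 1 = 1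

section Descent

variable {𝔓 : ValuationSubring (AlgebraicClosure ℚ)}

theorem IsOStd.of_fibre {P A B : Type} [CommRing P] [CommRing A] [CommRing B]
    (pA : P →+* A) (pB : P →+* B) (hinj : Function.Injective (fun x => (pA x, pB x)))
    {r : GQ →* M2 P} (hA : IsOStd 𝔓 (mapRep pA r)) (hB : IsOStd 𝔓 (mapRep pB r)) :
    IsOStd 𝔓 r where
  dec := by
    intro σ hσ
    have hA1 := hA.dec σ hσ
    have hB1 := hB.dec σ hσ
    rw [mapRep_apply_apply] at hA1 hB1
    exact eq_zero_of_fibre pA pB hinj hA1 hB1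
  inert := by
    intro σ hσ
    have hA1 := hA.inert σ hσ
    have hB1 := hB.inert σ hσ
    rw [mapRep_apply_apply] at hA1 hB1
    exact eq_of_fibre pA pB hinj (by rw [hA1, map_one]) (by rw [hB1, map_one])

theorem IsOStd.of_quotients {A : Type} [CommRing A] [IsLocalRing A] [IsNoetherianRing A]
    {r : GQ →* M2 A}
    (h : ∀ n : ℕ, n ≠ 0 → IsOStd 𝔓 (mapRep (Ideal.Quotient.mk (maximalIdeal A ^ n)) r)) :
    IsOStd 𝔓 r where
  dec := by
    intro σ hσ
    refine eq_zero_of_quotients fun n hn => ?_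
    have := (h n hn).dec σ hσ
    rwa [mapRep_apply_apply] at this
  inert := by
    intro σ hσ
    refine eq_of_quotients fun n hn => ?_
    have := (h n hn).inert σ hσ
    rw [mapRep_apply_apply] at this
    rw [this, map_one]

/-- Standard form is preserved by conjugation with invertible upper triangular matrices. -/
theorem IsOStd.conj_triangular {A : Type} [CommRing A] {r : GQ →* M2 A} (h : IsOStd 𝔓 r)
    (T : (M2 A)ˣ) (hT : (T : M2 A) 1 0 = 0) : IsOStd 𝔓 (cj T⁻¹ r) := by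
  have key : ∀ σ : GQ, r σ 1 0 = 0 → cj T⁻¹ r σ 1 0 = 0 ∧
      cj T⁻¹ r σ 0 0 = r σ 0 0 ∧ cj T⁻¹ r σ 1 1 = r σ 1 1 := by
    intro σ hσ
    refine Fermat.Agent.S59.H659.conj_triangular T hT (r σ) (cj T⁻¹ r σ) ?_ hσ
    rw [cj_apply, inv_inv, ← mul_assoc, ← mul_assoc, Units.mul_inv, one_mul]
  constructor
  · intro σ hσ
    exact (key σ (h.dec σ hσ)).1
  · intro σ hσ
    obtain ⟨-, -, k3⟩ := key σ (h.dec σ (mem_decomposition_of_mem_inertia hσ))
    rw [k3]
    exact h.inert σ hσ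

end Descent

section Main

variable {𝔓 : ValuationSubring (AlgebraicClosure ℚ)} {p : ℕ}

/-- The trace of `r σ₀ - 1` is a unit when `r` is conjugate to a representation in ordinary
standard form, has cyclotomic determinant, and the cyclotomic character of `σ₀ ∈ I` is not `1`
modulo `p`. -/
theorem isUnit_trace_sub_one_ord {A : Type} [CommRing A] [IsLocalRing A] (hp : p.Prime)
    (hpA : (p : A) ∈ maximalIdeal A) {r : GQ →* M2 A} (P : (M2 A)ˣ)
    (h : IsOStd 𝔓 (cj P r)) (hdet : ∀ σ : GQ, CycCong p σ (r σ).det 1)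
    {σ₀ : GQ} (hσ₀ : σ₀ ∈ 𝔓.inertiaSubgroupIn ℚ)
    (hσ₀' : ∀ a : ℕ, IsCycExp p σ₀ a → ¬ a ≡ 1 [MOD p]) : IsUnit (r σ₀ - 1).trace := by
  obtain ⟨a, ha⟩ := exists_isCycExp p hp.ne_zero σ₀
  have h0 := h.dec σ₀ (mem_decomposition_of_mem_inertia hσ₀)
  have h2 := h.inert σ₀ hσ₀
  have h1 := hdet σ₀ 1 a (by rwa [pow_one])
  have hd : (r σ₀).det = cj P r σ₀ 0 0 := by
    have h3 : (cj P r σ₀).det = (r σ₀).det := by
      rw [cj_apply]
      exact Matrix.det_units_conj P (r σ₀)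
    rw [← h3, Matrix.det_fin_two, h0, h2]
    ring
  have htr : (r σ₀ - 1).trace = cj P r σ₀ 0 0 - 1 := by
    have h3 : (cj P r σ₀).trace = (r σ₀).trace := by
      rw [cj_apply]
      exact Matrix.trace_units_conj P (r σ₀)
    rw [Matrix.trace_sub, ← h3, Matrix.trace_fin_two, Matrix.trace_fin_two, h2]
    simp only [Matrix.one_apply_eq]
    ring
  rw [htr]
  rw [hd, mul_one, pow_one] at h1
  have h4 : cj P r σ₀ 0 0 - (a : A) ∈ maximalIdeal A := by
    obtain ⟨c, hc⟩ := Ideal.mem_span_singleton'.mp h1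
    rw [← hc]
    exact Ideal.mul_mem_left _ _ hpA
  have h5 : IsUnit ((a : A) - 1) := isUnit_natCast_sub_one hp hpA (hσ₀' a ha)
  have h6 : cj P r σ₀ 0 0 - 1 = ((a : A) - 1) + (cj P r σ₀ 0 0 - (a : A)) := by ring
  rw [h6]
  by_contra hcon
  have h7 : ((a : A) - 1) + (cj P r σ₀ 0 0 - (a : A)) ∈ maximalIdeal A := hcon
  have h8 : (a : A) - 1 ∈ maximalIdeal A := by
    have := Ideal.sub_mem _ h7 h4
    rwa [add_sub_cancel_right] at this
  exact h8 h5

/-- **The stable line is canonical.** -/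
theorem isOStd_mapRep_conj {R A : Type} [CommRing R] [CommRing A] (φ : R →+* A)
    {r : GQ →* M2 R} {σ₀ : GQ} (hσ₀ : σ₀ ∈ 𝔓.inertiaSubgroupIn ℚ) (Q : (M2 R)ˣ) (j : Fin 2)
    (hQ : ∀ i, (Q : M2 R) i 0 = (r σ₀ - 1) i j) (P : (M2 A)ˣ)
    (h : IsOStd 𝔓 (cj P (mapRep φ r))) :
    IsOStd 𝔓 (mapRep φ (cj Q⁻¹ r)) := by
  set Qφ : (M2 A)ˣ := Units.map φ.mapMatrix.toMonoidHom Q with hQφ
  set T : (M2 A)ˣ := P * Qφ with hT
  have h10 := h.dec σ₀ (mem_decomposition_of_mem_inertia hσ₀)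
  have h11 := h.inert σ₀ hσ₀
  have hconj : (P : M2 A) * (mapRep φ r σ₀ - 1) = (cj P (mapRep φ r) σ₀ - 1) * P := by
    rw [mul_sub, sub_mul, mul_one, one_mul, cj_mul_eq]
  have hrow : ∀ k, ((P : M2 A) * (mapRep φ r σ₀ - 1)) 1 k = 0 := by
    intro k
    rw [hconj, Matrix.mul_apply, Fin.sum_univ_two, Matrix.sub_apply, Matrix.sub_apply, h10, h11]
    simp
  have hT10 : (T : M2 A) 1 0 = 0 := by
    have h1 : ∀ i, (Qφ : M2 A) i 0 = (mapRep φ r σ₀ - 1) i j := by
      intro i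
      show φ ((Q : M2 R) i 0) = _
      rw [hQ i, Matrix.sub_apply, Matrix.sub_apply, map_sub, mapRep_apply_apply]
      congr 1
      by_cases hij : i = j
      · subst hij; simp
      · simp [hij]
    have h2 := hrow j
    rw [Matrix.mul_apply, Fin.sum_univ_two] at h2
    rw [hT, Units.val_mul, Matrix.mul_apply, Fin.sum_univ_two, h1 0, h1 1]
    exact h2
  have h3 := h.conj_triangular T hT10
  rw [cj_cj] at h3
  have h4 : T⁻¹ * P = Qφ⁻¹ := by
    rw [hT, mul_inv_rev, inv_mul_cancel_right]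
  rw [h4] at h3
  rw [mapRep_cj, map_inv]
  exact h3

/-- **Ordinary descent along jointly injective pairs** (with cyclotomic determinant). -/
theorem exists_isOStd_of_fibre (hp : p.Prime) (hp2 : p ≠ 2) (h𝔓 : 𝔓.LiesOverPrime p)
    {P A B : Type} [CommRing P] [IsLocalRing P] [CommRing A] [IsLocalRing A] [CommRing B]
    [IsLocalRing B]
    (pA : P →+* A) (pB : P →+* B) (hpA : IsLocalHom pA)
    (hinj : Function.Injective (fun x => (pA x, pB x)))
    (hA : (p : A) ∈ maximalIdeal A) (r : GQ →* M2 P)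
    (hdet : ∀ σ : GQ, CycCong p σ (mapRep pA r σ).det 1)
    (h1 : ∃ U : (M2 A)ˣ, IsOStd 𝔓 (cj U (mapRep pA r)))
    (h2 : ∃ U : (M2 B)ˣ, IsOStd 𝔓 (cj U (mapRep pB r))) :
    ∃ U : (M2 P)ˣ, IsOStd 𝔓 (cj U r) := by
  obtain ⟨σ₀, hσ₀, hσ₀'⟩ := exists_inertia_cycExp_ne_one p hp hp2 𝔓 h𝔓
  obtain ⟨UA, hUA⟩ := h1
  obtain ⟨UB, hUB⟩ := h2
  have htr : IsUnit (r σ₀ - 1).trace := by
    have h3 := isUnit_trace_sub_one_ord hp hA UA hUA hdet hσ₀ hσ₀'
    have h4 : (mapRep pA r σ₀ - 1).trace = pA (r σ₀ - 1).trace := by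
      rw [Matrix.trace_fin_two, Matrix.trace_fin_two]
      simp
    rw [h4] at h3
    exact isUnit_of_map_unit pA _ h3
  obtain ⟨Q, j, hQ⟩ := exists_unit_col (r σ₀ - 1) htr
  exact ⟨Q⁻¹, IsOStd.of_fibre pA pB hinj (isOStd_mapRep_conj pA hσ₀ Q j hQ UA hUA)
    (isOStd_mapRep_conj pB hσ₀ Q j hQ UB hUB)⟩

/-- **Ordinary descent from the quotients `A ⧸ 𝔪ⁿ`** (with cyclotomic determinant). -/
theorem exists_isOStd_of_quotients (hp : p.Prime) (hp2 : p ≠ 2) (h𝔓 : 𝔓.LiesOverPrime p)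
    {A : Type} [CommRing A] [IsLocalRing A] [IsNoetherianRing A] (r : GQ →* M2 A)
    (hloc : IsLocalRing (A ⧸ maximalIdeal A ^ 1))
    (hA : (p : A ⧸ maximalIdeal A ^ 1) ∈ maximalIdeal (A ⧸ maximalIdeal A ^ 1))
    (hdet : ∀ σ : GQ,
      CycCong p σ (mapRep (Ideal.Quotient.mk (maximalIdeal A ^ 1)) r σ).det 1)
    (h : ∀ n : ℕ, n ≠ 0 → ∃ U : (M2 (A ⧸ maximalIdeal A ^ n))ˣ,
      IsOStd 𝔓 (cj U (mapRep (Ideal.Quotient.mk (maximalIdeal A ^ n)) r))) :
    ∃ U : (M2 A)ˣ, IsOStd 𝔓 (cj U r) := by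
  obtain ⟨σ₀, hσ₀, hσ₀'⟩ := exists_inertia_cycExp_ne_one p hp hp2 𝔓 h𝔓
  have htr : IsUnit (r σ₀ - 1).trace := by
    obtain ⟨U1, hU1⟩ := h 1 one_ne_zero
    have h3 := isUnit_trace_sub_one_ord hp hA U1 hU1 hdet hσ₀ hσ₀'
    have h4 : (mapRep (Ideal.Quotient.mk (maximalIdeal A ^ 1)) r σ₀ - 1).trace =
        Ideal.Quotient.mk (maximalIdeal A ^ 1) (r σ₀ - 1).trace := by
      rw [Matrix.trace_fin_two, Matrix.trace_fin_two]
      simp
    rw [h4] at h3
    haveI : IsLocalHom (Ideal.Quotient.mk (maximalIdeal A ^ 1)) :=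
      IsLocalHom.of_surjective _ Ideal.Quotient.mk_surjective
    exact isUnit_of_map_unit (Ideal.Quotient.mk (maximalIdeal A ^ 1)) _ h3
  obtain ⟨Q, j, hQ⟩ := exists_unit_col (r σ₀ - 1) htr
  refine ⟨Q⁻¹, IsOStd.of_quotients fun n hn => ?_⟩
  obtain ⟨Un, hUn⟩ := h n hn
  exact isOStd_mapRep_conj _ hσ₀ Q j hQ Un hUn

end Main

/-! ### From lines to matrices -/

section Bridge

variable {A : Type} [CommRing A] [IsLocalRing A]

/-- The local part of the Prelude's `IsOrdinaryAt`, in terms of a basis. -/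
theorem oLoc_iff_basis (ρ : GaloisRepAdic A) (𝔓 : ValuationSubring (AlgebraicClosure ℚ)) :
    (∃ L : Submodule A ρ.V,
      (∃ b : Module.Basis (Fin 2) A ρ.V, L = Submodule.span A {b 0}) ∧
      (∀ σ ∈ 𝔓.decompositionSubgroup ℚ, ∀ v ∈ L, ρ.ρ σ v ∈ L) ∧
      (∀ σ ∈ 𝔓.inertiaSubgroupIn ℚ, ∀ v : ρ.V, ρ.ρ σ v - v ∈ L)) ↔
    ∃ b : Module.Basis (Fin 2) A ρ.V,
      (∀ σ ∈ 𝔓.decompositionSubgroup ℚ, LinearMap.toMatrix b b (ρ.ρ σ) 1 0 = 0) ∧
      (∀ σ ∈ 𝔓.inertiaSubgroupIn ℚ, LinearMap.toMatrix b b (ρ.ρ σ) 1 1 = 1) := by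
  constructor
  · rintro ⟨L, ⟨b, rfl⟩, hD, hI⟩
    refine ⟨b, fun σ hσ => ?_, fun σ hσ => ?_⟩
    · exact (map_mem_span_iff b (ρ.ρ σ)).mp (hD σ hσ)
    · have h1 : ∀ v, ρ.ρ σ v - (1 : A) • v ∈ Submodule.span A {b 0} := fun v => by
        rw [one_smul]; exact hI σ hσ v
      exact ((sub_smul_mem_span_iff b (ρ.ρ σ) 1).mp h1).2
  · rintro ⟨b, hD, hI⟩
    refine ⟨Submodule.span A {b 0}, ⟨b, rfl⟩, fun σ hσ => ?_, fun σ hσ v => ?_⟩
    · exact (map_mem_span_iff b (ρ.ρ σ)).mpr (hD σ hσ)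
    · have h1 := (sub_smul_mem_span_iff b (ρ.ρ σ) 1).mpr
        ⟨hD σ (mem_decomposition_of_mem_inertia hσ), hI σ hσ⟩ v
      rwa [one_smul] at h1

/-- **Ordinary representations in terms of matrices.** -/
theorem isOrdinaryAt_toAdic_iff (r : GQ →* M2 A) (hr : MatCont r) (p : ℕ) :
    (toAdic r hr).IsOrdinaryAt p ↔
      ∀ 𝔓 : ValuationSubring (AlgebraicClosure ℚ),
        𝔓.LiesOverPrime p → ∃ U : (M2 A)ˣ, IsOStd 𝔓 (cj U r) := by
  have key : ∀ (b : Module.Basis (Fin 2) A (Fin 2 → A)) (U : (M2 A)ˣ),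
      (∀ v : Fin 2 → A, (U : M2 A).mulVec v = b.equivFun v) →
      ∀ σ, LinearMap.toMatrix b b ((toAdic r hr).ρ σ) = cj U r σ := fun b U hU σ =>
    toMatrix_matEnd b U hU (r σ)
  unfold GaloisRepAdic.IsOrdinaryAt
  refine forall_congr' fun 𝔓 => forall_congr' fun h𝔓 => ?_
  rw [oLoc_iff_basis]
  constructor
  · rintro ⟨b, hD, hI⟩
    have hU : ∀ v : Fin 2 → A, ((equivUnit b.equivFun : (M2 A)ˣ) : M2 A).mulVec v =
        b.equivFun v := fun v => equivUnit_mulVec b.equivFun v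
    refine ⟨equivUnit b.equivFun, ⟨fun σ hσ => ?_, fun σ hσ => ?_⟩⟩
    · rw [← key b _ hU σ]
      exact hD σ hσ
    · rw [← key b _ hU σ]
      exact hI σ hσ
  · rintro ⟨U, hU⟩
    let b : Module.Basis (Fin 2) A (Fin 2 → A) := Module.Basis.ofEquivFun (unitEquiv U)
    have hb : ∀ v : Fin 2 → A, (U : M2 A).mulVec v = b.equivFun v := fun v => by
      rw [Module.Basis.equivFun_ofEquivFun]
      rfl
    refine ⟨b, fun σ hσ => ?_, fun σ hσ => ?_⟩
    · have h1 := hU.dec σ hσ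
      rw [← key b U hb σ] at h1
      exact h1
    · have h1 := hU.inert σ hσ
      rw [← key b U hb σ] at h1
      exact h1

end Bridge

/-! ### The core condition -/

/-- "Determinant cyclotomic and ordinary at `p`" is a deformation condition (`p` an odd
prime). -/
theorem isCoreCond_det_isOrdinaryAt (p : ℕ) (hp : p.Prime) (hp2 : p ≠ 2) :
    IsCoreCond (fun _A _ _ ρ => ρ.DetIsCyclotomic p ∧ ρ.IsOrdinaryAt p) where
  of_isEquiv := fun _ _ _ _ _ he h =>
    ⟨detIsCyclotomic_of_isEquiv he h.1, isOrdinaryAt_of_isEquiv he h.2⟩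
  baseChangeAlong := fun _ _ _ _ _ _ φ hφ _ h =>
    ⟨detIsCyclotomic_baseChangeAlong φ hφ h.1, isOrdinaryAt_baseChangeAlong φ hφ h.2⟩
  of_fibre := by
    intro P A B _ _ _ _ _ _ _ _ _ pA pB hpA hpB hinj r hr hA hB
    have hdetP := (isCoreCond_detIsCyclotomic p hp.ne_zero).of_fibre pA pB hpA hpB hinj r hr
      hA.1 hB.1
    refine ⟨hdetP, ?_⟩
    have hA1 := hA.1
    have hA2 := hA.2
    have hB2 := hB.2
    rw [detIsCyclotomic_toAdic_iff] at hA1
    rw [isOrdinaryAt_toAdic_iff] at hA2 hB2 ⊢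
    intro 𝔓 h𝔓
    exact exists_isOStd_of_fibre hp hp2 h𝔓 pA pB hpA hinj hA1.1 r hA1.2 (hA2 𝔓 h𝔓) (hB2 𝔓 h𝔓)
  of_quotients := by
    intro A _ _ _ _ r hr h
    have hdetA := (isCoreCond_detIsCyclotomic p hp.ne_zero).of_quotients r hr
      fun n hn hloc hq => (h n hn hloc hq).1
    refine ⟨hdetA, ?_⟩
    rw [isOrdinaryAt_toAdic_iff]
    have hloc : ∀ n : ℕ, n ≠ 0 → IsLocalRing (A ⧸ maximalIdeal A ^ n) := fun n hn =>
      isLocalRing_quotient _ (maximalIdeal_pow_ne_top n hn)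
    have hq : ∀ n : ℕ, n ≠ 0 → IsLocalHom (Ideal.Quotient.mk (maximalIdeal A ^ n)) :=
      fun n hn =>
        haveI := hloc n hn
        IsLocalHom.of_surjective _ Ideal.Quotient.mk_surjective
    have key : ∀ n : ℕ, ∀ hn : n ≠ 0,
        ∀ 𝔓 : ValuationSubring (AlgebraicClosure ℚ), 𝔓.LiesOverPrime p →
          ∃ U : (M2 (A ⧸ maximalIdeal A ^ n))ˣ,
            IsOStd 𝔓 (cj U (mapRep (Ideal.Quotient.mk (maximalIdeal A ^ n)) r)) := by
      intro n hn
      have h1 := (h n hn (hloc n hn) (hq n hn)).2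
      rwa [@isOrdinaryAt_toAdic_iff _ _ (hloc n hn)] at h1
    have hdet1 := (h 1 one_ne_zero (hloc 1 one_ne_zero) (hq 1 one_ne_zero)).1
    rw [@detIsCyclotomic_toAdic_iff _ _ (hloc 1 one_ne_zero)] at hdet1
    intro 𝔓 h𝔓
    exact exists_isOStd_of_quotients hp hp2 h𝔓 r (hloc 1 one_ne_zero) hdet1.1 hdet1.2
      fun n hn => key n hn 𝔓 h𝔓

/-! ### The conditions of the Prelude -/

theorem IsCoreCond.of_iff {Q Q' : AdicPred} (h : IsCoreCond Q)
    (hQ : ∀ ⦃A : Type⦄ [CommRing A] [IsLocalRing A] (ρ : GaloisRepAdic A), Q' ρ ↔ Q ρ) :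
    IsCoreCond Q' where
  of_isEquiv := fun _ _ _ _ _ he hρ => (hQ _).2 (h.of_isEquiv he ((hQ _).1 hρ))
  baseChangeAlong := fun _ _ _ _ _ _ φ hφ _ hρ => (hQ _).2 (h.baseChangeAlong φ hφ ((hQ _).1 hρ))
  of_fibre := fun _ _ _ _ _ _ _ _ _ _ _ _ pA pB hpA hpB hinj r hr hA hB =>
    (hQ _).2 (h.of_fibre pA pB hpA hpB hinj r hr ((hQ _).1 hA) ((hQ _).1 hB))
  of_quotients := fun _ _ _ _ _ r hr hρ =>
    (hQ _).2 (h.of_quotients r hr fun n hn hloc hq => (hQ _).1 (hρ n hn hloc hq))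

theorem isCoreCond_ordinaryCondition (p : ℕ) (hp : p.Prime) (hp2 : p ≠ 2) (S : Finset ℕ) :
    IsCoreCond (fun _A _ _ ρ => ρ.DetIsCyclotomic p ∧ ρ.IsOrdinaryAt p ∧
      ∀ q : ℕ, q.Prime → q ∉ S → ρ.IsUnramifiedAt q) :=
  ((isCoreCond_det_isOrdinaryAt p hp hp2).and (isCoreCond_unramifiedOutside S)).of_iff
    fun _ _ _ _ => ⟨fun h => ⟨⟨h.1, h.2.1⟩, h.2.2⟩, fun h => ⟨h.1.1, h.1.2, h.2⟩⟩

section Conditions

variable (𝒪 : Type) [CommRing 𝒪] [IsLocalRing 𝒪] [Finite (ResidueField 𝒪)]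
  (p : ℕ) (hp : p.Prime) (hp2 : p ≠ 2) (S Smin : Finset ℕ)

include hp hp2

/-- The ordinary condition of the Prelude is a deformation condition. -/
theorem isDeformationCondition_ordinaryCondition :
    GaloisRep.IsDeformationCondition 𝒪 (GaloisRep.ordinaryCondition 𝒪 p S) :=
  (isCoreCond_ordinaryCondition p hp hp2 S).isDeformationCondition 𝒪

/-- Ordinary with respect to `S` and unipotent inertia at the primes of `Smin` different from
`p` (type `.ord` of `Arch.sigmaCond`). -/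
theorem isDeformationCondition_ordinary_unipotent :
    GaloisRep.IsDeformationCondition 𝒪 (fun _A _ _ _ ρ =>
      GaloisRep.ordinaryCondition 𝒪 p S ρ ∧
        ∀ q ∈ Smin, q.Prime → q ≠ p → ρ.IsUnipotentOnInertiaAt q) :=
  ((isCoreCond_ordinaryCondition p hp hp2 S).and
    (isCoreCond_unipotentOn p Smin)).isDeformationCondition 𝒪

/-- The minimal ordinary condition of the Prelude is a deformation condition. -/
theorem isDeformationCondition_minimalOrdinaryCondition :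
    GaloisRep.IsDeformationCondition 𝒪 (GaloisRep.minimalOrdinaryCondition 𝒪 p S) :=
  isDeformationCondition_ordinary_unipotent 𝒪 p hp hp2 S S

end Conditions

end Fermat.Agent.S59.H659
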