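import Fermat.Agent.S59.Arch.SpecRT
import Fermat.Agent.S59.H659.Ord
import Fermat.Agent.S59.H659.FlatClosed
import Fermat.Agent.S59.H247.TangentFinite
import Fermat.Agent.S53

/-!
# S59, cell COND (helper659): `Arch.SigmaCondStatement`

The conditions `Arch.sigmaCond 𝒪 p t Smin Σ` of type `Σ` (`t = .flat`, `.sord`, `.ord`) are
deformation conditions with finite tangent spaces:

* `.flat` : `isDeformationCondition_flat_unipotent_closed` (`FlatClosed.lean`; helper779 +
  Raynaud closure from cell A3);
* `.sord` : `isDeformationCondition_strictOrdinary_unipotent` (`Conditions.lean`);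
* `.ord`  : `isDeformationCondition_ordinary_unipotent` (`Ord.lean`);
* tangent spaces: helper247 (`H247.tangentFinite_of_unramified_outside`).

Also: `nonempty_deformationRingData_sigmaCond` — the universal deformation ring `R_Σ` exists
(S53) for every absolutely irreducible `ρ̄` of type `Σ`.
-/

set_option autoImplicit false
set_option linter.unusedSectionVars false

namespace Fermat.Agent.S59.H659

open IsLocalRing Fermat.Agent.S59.Arch

section

variable (𝒪 : Type) [CommRing 𝒪] [IsLocalRing 𝒪] [Finite (ResidueField 𝒪)]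
  (p : ℕ) (hp : p.Prime) (hp2 : p ≠ 2) (t : PType) (Smin Sig : Finset ℕ)

include hp hp2 in
/-- The conditions of type `Σ` are deformation conditions. -/
theorem isDeformationCondition_sigmaCond :
    GaloisRep.IsDeformationCondition 𝒪 (sigmaCond 𝒪 p t Smin Sig) := by
  cases t
  · exact isDeformationCondition_flat_unipotent_closed 𝒪 p hp Sig Smin
  · exact isDeformationCondition_strictOrdinary_unipotent 𝒪 p hp hp2 Sig Smin
  · exact isDeformationCondition_ordinary_unipotent 𝒪 p hp hp2 Sig Smin

/-- The conditions of type `Σ` have finite tangent spaces. -/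
theorem tangentFinite_sigmaCond (ρbar : ResidualGaloisRep (ResidueField 𝒪)) :
    GaloisRep.TangentFinite 𝒪 ρbar (sigmaCond 𝒪 p t Smin Sig) := by
  cases t
  · exact H247.tangentFinite_of_unramified_outside 𝒪 ρbar _ Sig fun _ _ h => h.1.2.2
  · exact H247.tangentFinite_of_unramified_outside 𝒪 ρbar _ Sig fun _ _ h => h.1.2.2
  · exact H247.tangentFinite_of_unramified_outside 𝒪 ρbar _ Sig fun _ _ h => h.1.2.2

end

/-- **Cell COND.** -/
theorem sigmaCondStatement : SigmaCondStatement := by
  intro p hpF hp2 𝒪 _ _ _ _ _ _ t Smin Sig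
  exact ⟨isDeformationCondition_sigmaCond 𝒪 p hpF.out hp2 t Smin Sig,
    fun ρbar => tangentFinite_sigmaCond 𝒪 p t Smin Sig ρbar⟩

/-- **The universal deformation ring of type `Σ` exists** (S53 + cell COND). -/
theorem nonempty_deformationRingData_sigmaCond
    (𝒪 : Type) [CommRing 𝒪] [IsDomain 𝒪] [IsDiscreteValuationRing 𝒪]
    [IsAdicComplete (maximalIdeal 𝒪) 𝒪] [Finite (ResidueField 𝒪)]
    (ρbar : ResidualGaloisRep (ResidueField 𝒪)) (habs : ρbar.IsAbsolutelyIrreducible)
    (p : ℕ) (hp : p.Prime) (hp2 : p ≠ 2) (t : PType) (Smin Sig : Finset ℕ)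
    (hbar : sigmaCond 𝒪 p t Smin Sig (GaloisRepAdic.ofResidualGaloisRep ρbar)) :
    Nonempty (GaloisRep.DeformationRingData 𝒪 ρbar (sigmaCond 𝒪 p t Smin Sig)) :=
  Fermat.Agent.S53.result 𝒪 ρbar _ habs (isDeformationCondition_sigmaCond 𝒪 p hp hp2 t Smin Sig)
    hbar (tangentFinite_sigmaCond 𝒪 p t Smin Sig ρbar)

end Fermat.Agent.S59.H659
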