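import Fermat.Agent.S59.H659.Core
import Fermat.Agent.S56.H966.CondBC

/-!
# S59, piece G3 (helper659): elementary descent lemmas

* the representation `toAdic r hr` in terms of the matrices `r σ`;
* elements, polynomials and matrices are detected by a jointly injective pair of homomorphisms;
* in a Noetherian local ring they are detected by the quotients `A ⧸ 𝔪ⁿ`, and membership in an
  ideal is detected by these quotients (Krull's intersection theorem).
-/

set_option autoImplicit false
set_option linter.unusedSectionVars false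
set_option linter.style.haveILetI false

namespace Fermat.Agent.S59.H659

open Fermat.Agent.S53 IsLocalRing Polynomial

section toAdic

variable {A : Type} [CommRing A] [IsLocalRing A]

theorem toAdic_rho_eq_one_iff (r : GQ →* M2 A) (hr : MatCont r) (σ : GQ) :
    (toAdic r hr).ρ σ = 1 ↔ r σ = 1 := by
  constructor
  · intro h
    apply matEnd_injective A
    rw [map_one]
    exact h
  · intro h
    show matEnd A (r σ) = 1
    rw [h, map_one]

theorem det_toAdic (r : GQ →* M2 A) (hr : MatCont r) (σ : GQ) :
    LinearMap.det ((toAdic r hr).ρ σ) = (r σ).det :=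
  LinearMap.det_toLin' (r σ)

theorem charpoly_toAdic (r : GQ →* M2 A) (hr : MatCont r) (σ : GQ) :
    LinearMap.charpoly ((toAdic r hr).ρ σ) = (r σ).charpoly :=
  Matrix.charpoly_toLin' (r σ)

end toAdic

section Fibre

variable {P A B : Type} [CommRing P] [CommRing A] [CommRing B] (pA : P →+* A) (pB : P →+* B)
  (hinj : Function.Injective (fun x => (pA x, pB x)))

include hinj

theorem eq_of_fibre {x y : P} (hA : pA x = pA y) (hB : pB x = pB y) : x = y :=
  hinj (Prod.ext hA hB)

theorem eq_zero_of_fibre {x : P} (hA : pA x = 0) (hB : pB x = 0) : x = 0 :=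
  eq_of_fibre pA pB hinj (by rw [hA, map_zero]) (by rw [hB, map_zero])

theorem mat_eq_of_fibre {M N : M2 P} (hA : M.map pA = N.map pA) (hB : M.map pB = N.map pB) :
    M = N := by
  ext i j
  refine eq_of_fibre pA pB hinj ?_ ?_
  · have := congrFun (congrFun hA i) j
    simpa using this
  · have := congrFun (congrFun hB i) j
    simpa using this

theorem poly_eq_of_fibre {f g : P[X]} (hA : f.map pA = g.map pA) (hB : f.map pB = g.map pB) :
    f = g := by
  ext k
  refine eq_of_fibre pA pB hinj ?_ ?_
  · have := congrArg (fun h => Polynomial.coeff h k) hA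
    simpa using this
  · have := congrArg (fun h => Polynomial.coeff h k) hB
    simpa using this

end Fibre

section Quot

variable {A : Type} [CommRing A] [IsLocalRing A] [IsNoetherianRing A]

/-- Krull's intersection theorem, elementwise. -/
theorem eq_zero_of_quotients {x : A}
    (h : ∀ n : ℕ, n ≠ 0 → Ideal.Quotient.mk (maximalIdeal A ^ n) x = 0) : x = 0 := by
  have h1 : x ∈ ⨅ n : ℕ, maximalIdeal A ^ n := by
    rw [Ideal.mem_iInf]
    intro n
    rcases Nat.eq_zero_or_pos n with rfl | hn
    · simp
    · exact Ideal.Quotient.eq_zero_iff_mem.mp (h n hn.ne')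
  rw [Ideal.iInf_pow_eq_bot_of_isLocalRing (maximalIdeal A) Ideal.IsPrime.ne_top'] at h1
  exact h1

theorem eq_of_quotients {x y : A}
    (h : ∀ n : ℕ, n ≠ 0 → Ideal.Quotient.mk (maximalIdeal A ^ n) x =
      Ideal.Quotient.mk (maximalIdeal A ^ n) y) : x = y := by
  rw [← sub_eq_zero]
  exact eq_zero_of_quotients fun n hn => by rw [map_sub, h n hn, sub_self]

theorem mat_eq_of_quotients {M N : M2 A}
    (h : ∀ n : ℕ, n ≠ 0 → M.map (Ideal.Quotient.mk (maximalIdeal A ^ n)) =
      N.map (Ideal.Quotient.mk (maximalIdeal A ^ n))) : M = N := by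
  ext i j
  refine eq_of_quotients fun n hn => ?_
  have := congrFun (congrFun (h n hn) i) j
  simpa using this

theorem poly_eq_of_quotients {f g : A[X]}
    (h : ∀ n : ℕ, n ≠ 0 → f.map (Ideal.Quotient.mk (maximalIdeal A ^ n)) =
      g.map (Ideal.Quotient.mk (maximalIdeal A ^ n))) : f = g := by
  ext k
  refine eq_of_quotients fun n hn => ?_
  have := congrArg (fun h => Polynomial.coeff h k) (h n hn)
  simpa using this

/-- Ideals of a Noetherian local ring are closed: membership is detected modulo the powers of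
the maximal ideal. -/
theorem mem_of_quotients (I : Ideal A) {x : A}
    (h : ∀ n : ℕ, n ≠ 0 → Ideal.Quotient.mk (maximalIdeal A ^ n) x ∈
      I.map (Ideal.Quotient.mk (maximalIdeal A ^ n))) : x ∈ I := by
  have h1 : ∀ n : ℕ, x ∈ I ⊔ maximalIdeal A ^ n := by
    intro n
    rcases Nat.eq_zero_or_pos n with rfl | hn
    · simp
    · have h2 := h n hn.ne'
      rw [← Ideal.mem_comap, Ideal.comap_map_of_surjective _ Ideal.Quotient.mk_surjective,
        ← RingHom.ker_eq_comap_bot, Ideal.mk_ker] at h2
      exact h2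
  -- pass to the quotient `A ⧸ I`
  by_cases hI : I = ⊤
  · rw [hI]; trivial
  haveI : Nontrivial (A ⧸ I) := Ideal.Quotient.nontrivial_iff.mpr hI
  haveI : IsLocalRing (A ⧸ I) :=
    IsLocalRing.of_surjective' (Ideal.Quotient.mk I) Ideal.Quotient.mk_surjective
  have h3 : Ideal.Quotient.mk I x ∈ ⨅ n : ℕ, (maximalIdeal A).map (Ideal.Quotient.mk I) ^ n := by
    rw [Ideal.mem_iInf]
    intro n
    rw [← Ideal.map_pow]
    obtain ⟨a, ha, b, hb, hab⟩ := Submodule.mem_sup.mp (h1 n)
    rw [← hab, map_add, Ideal.Quotient.eq_zero_iff_mem.mpr ha, zero_add]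
    exact Ideal.mem_map_of_mem _ hb
  have hne : (maximalIdeal A).map (Ideal.Quotient.mk I) ≠ ⊤ := by
    intro htop
    have h4 : (1 : A ⧸ I) ∈ (maximalIdeal A).map (Ideal.Quotient.mk I) := by rw [htop]; trivial
    rw [← map_one (Ideal.Quotient.mk I), ← Ideal.mem_comap,
      Ideal.comap_map_of_surjective _ Ideal.Quotient.mk_surjective,
      ← RingHom.ker_eq_comap_bot, Ideal.mk_ker] at h4
    have h5 : maximalIdeal A ⊔ I = maximalIdeal A :=
      sup_eq_left.mpr (IsLocalRing.le_maximalIdeal hI)
    rw [h5] at h4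
    exact (Ideal.ne_top_iff_one _).mp Ideal.IsPrime.ne_top' h4
  rw [Ideal.iInf_pow_eq_bot_of_isLocalRing _ hne] at h3
  exact Ideal.Quotient.eq_zero_iff_mem.mp h3

end Quot

section Local

variable {A B : Type} [CommRing A] [IsLocalRing A] [CommRing B] [IsLocalRing B]

/-- Ring homomorphisms of local rings reflect membership of the maximal ideal. -/
theorem mem_maximalIdeal_of_map (φ : A →+* B) {a : A}
    (h : φ a ∈ maximalIdeal B) : a ∈ maximalIdeal A := by
  rw [IsLocalRing.mem_maximalIdeal, mem_nonunits_iff] at h ⊢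
  exact fun ha => h (ha.map φ)

theorem natCast_mem_maximalIdeal_of_map (φ : A →+* B) {p : ℕ}
    (h : (p : B) ∈ maximalIdeal B) : (p : A) ∈ maximalIdeal A :=
  mem_maximalIdeal_of_map φ (by rwa [map_natCast])

end Local

end Fermat.Agent.S59.H659
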