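import Fermat.Agent.S53.Dict
import Fermat.Agent.S53.CommAlgTest
import Fermat.Prelude.Def_GaloisRep_DeformationCondition

/-!
# S59, piece G3 (helper659): deformation conditions, the formal core

`GaloisRep.IsDeformationCondition 𝒪 𝒟` for a predicate `𝒟 = fun _A _ _ _ ρ => Q ρ` which does not
depend on the `𝒪`-algebra structure is reduced to four properties of `Q` (`IsCoreCond Q`):

* invariance under equivalence and stability under base change along local homomorphisms
  (for all local rings);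
* descent along jointly injective pairs of local homomorphisms of Artinian local rings, for
  representations given by matrices (`of_fibre`); this contains descent along injective
  homomorphisms;
* descent from the quotients `A ⧸ 𝔪ⁿ` of a complete Noetherian local ring, for representations
  given by matrices (`of_quotients`).

Closure of `IsCoreCond` and of `IsDeformationCondition` under conjunctions and families.
-/

set_option autoImplicit false
set_option linter.unusedSectionVars false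
set_option linter.style.haveILetI false

namespace Fermat.Agent.S59.H659

open Fermat.Agent.S53 IsLocalRing

/-- Predicates on adic Galois representations over all local rings. -/
abbrev AdicPred : Type 1 :=
  ∀ ⦃A : Type⦄ [CommRing A] [IsLocalRing A], GaloisRepAdic A → Prop

/-- The properties of a predicate on adic Galois representations making it a deformation
condition. -/
structure IsCoreCond (Q : AdicPred) : Prop where
  of_isEquiv : ∀ ⦃A : Type⦄ [CommRing A] [IsLocalRing A] ⦃ρ ρ' : GaloisRepAdic A⦄,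
    ρ.IsEquiv ρ' → Q ρ → Q ρ'
  baseChangeAlong : ∀ ⦃A B : Type⦄ [CommRing A] [IsLocalRing A] [CommRing B] [IsLocalRing B]
    (φ : A →+* B) (hφ : IsLocalHom φ) ⦃ρ : GaloisRepAdic A⦄, Q ρ → Q (ρ.baseChangeAlong φ hφ)
  of_fibre : ∀ ⦃P A B : Type⦄ [CommRing P] [IsLocalRing P] [CommRing A] [IsLocalRing A]
    [CommRing B] [IsLocalRing B] [IsArtinianRing P] [IsArtinianRing A] [IsArtinianRing B]
    (pA : P →+* A) (pB : P →+* B) (hpA : IsLocalHom pA) (hpB : IsLocalHom pB),
    Function.Injective (fun x => (pA x, pB x)) →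
    ∀ (r : GQ →* M2 P) (hr : MatCont r), Q (toAdic (mapRep pA r) (hr.map pA hpA)) →
      Q (toAdic (mapRep pB r) (hr.map pB hpB)) → Q (toAdic r hr)
  of_quotients : ∀ ⦃A : Type⦄ [CommRing A] [IsLocalRing A] [IsNoetherianRing A]
    [IsAdicComplete (maximalIdeal A) A] (r : GQ →* M2 A) (hr : MatCont r),
    (∀ n : ℕ, n ≠ 0 → ∀ (hloc : IsLocalRing (A ⧸ maximalIdeal A ^ n))
      (hq : IsLocalHom (Ideal.Quotient.mk (maximalIdeal A ^ n))),
      Q (@toAdic (A ⧸ maximalIdeal A ^ n) _ hloc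
        (mapRep (Ideal.Quotient.mk (maximalIdeal A ^ n)) r)
        (@MatCont.map A (A ⧸ maximalIdeal A ^ n) _ _ _ hloc r hr _ hq))) →
    Q (toAdic r hr)

/-- The push-forward of a representation with a matrix model has the push-forward model. -/
theorem baseChangeAlong_isEquiv_toAdic {A B : Type} [CommRing A] [IsLocalRing A] [CommRing B]
    [IsLocalRing B] (φ : A →+* B) (hφ : IsLocalHom φ) (ρ : GaloisRepAdic A)
    (r : GQ →* M2 A) (hr : MatCont r) (h : ρ.IsEquiv (toAdic r hr)) :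
    (ρ.baseChangeAlong φ hφ).IsEquiv (toAdic (mapRep φ r) (hr.map φ hφ)) := by
  obtain ⟨e⟩ := h
  obtain ⟨e'⟩ := baseChangeAlong_toAdic φ hφ r hr
  exact ⟨(e.baseChangeAlong φ hφ).trans e'⟩

theorem isEquiv_symm {A : Type} [CommRing A] [IsLocalRing A] {ρ ρ' : GaloisRepAdic A}
    (h : ρ.IsEquiv ρ') : ρ'.IsEquiv ρ := by
  obtain ⟨e⟩ := h
  exact ⟨e.symm⟩

section Main

variable (𝒪 : Type) [CommRing 𝒪] [IsLocalRing 𝒪]

/-- **Deformation conditions from core conditions.** -/
theorem IsCoreCond.isDeformationCondition [Finite (ResidueField 𝒪)] {Q : AdicPred}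
    (hQ : IsCoreCond Q) :
    GaloisRep.IsDeformationCondition 𝒪 (fun _A _ _ _ ρ => Q ρ) where
  of_isEquiv := by
    intro A _ _ _ _ ρ ρ' hρ h
    exact hQ.of_isEquiv hρ h
  baseChangeAlong := by
    intro A B _ _ _ _ _ _ _ _ φ hφ ρ h
    exact hQ.baseChangeAlong (φ : A →+* B) hφ h
  of_baseChangeAlong_injective := by
    intro A B _ _ _ _ _ _ hA hB φ hφ hinj ρ h
    haveI := hA.isArtinian
    haveI := hB.isArtinian
    obtain ⟨r, hr, he⟩ := exists_toAdic ρ
    have h1 : Q (toAdic (mapRep (φ : A →+* B) r) (hr.map _ hφ)) :=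
      hQ.of_isEquiv (baseChangeAlong_isEquiv_toAdic (φ : A →+* B) hφ ρ r hr he) h
    have hinj' : Function.Injective (fun x : A => ((φ : A →+* B) x, (φ : A →+* B) x)) :=
      fun x y hxy => hinj (congrArg Prod.fst hxy)
    exact hQ.of_isEquiv (isEquiv_symm he)
      (hQ.of_fibre (φ : A →+* B) (φ : A →+* B) hφ hφ hinj' r hr h1 h1)
  of_fibreProduct := by
    intro A B C' P _ _ _ _ _ _ _ _ _ _ _ _ hA hB _ hP f g pA pB hpA hpB _ hinj _ ρ h1 h2
    haveI := hA.isArtinian
    haveI := hB.isArtinian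
    haveI := hP.isArtinian
    obtain ⟨r, hr, he⟩ := exists_toAdic ρ
    exact hQ.of_isEquiv (isEquiv_symm he)
      (hQ.of_fibre (pA : P →+* A) (pB : P →+* B) hpA hpB hinj r hr
        (hQ.of_isEquiv (baseChangeAlong_isEquiv_toAdic (pA : P →+* A) hpA ρ r hr he) h1)
        (hQ.of_isEquiv (baseChangeAlong_isEquiv_toAdic (pB : P →+* B) hpB ρ r hr he) h2))
  iff_forall_surjective := by
    intro A _ _ _ _ _ hloc hsurj ρ
    constructor
    · intro h B _ _ _ _ q hq _
      exact hQ.baseChangeAlong (q : A →+* B) hq h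
    · intro h
      obtain ⟨r, hr, he⟩ := exists_toAdic ρ
      refine hQ.of_isEquiv (isEquiv_symm he) (hQ.of_quotients r hr fun n hn hlocQ hq => ?_)
      letI := hlocQ
      have hT : GaloisRep.IsArtinianTestAlgebra 𝒪 (A ⧸ maximalIdeal A ^ n) :=
        isArtinianTestAlgebra_quotient_of_pow_le hloc hsurj _ n le_rfl
      have h1 := h hT (Ideal.Quotient.mkₐ 𝒪 (maximalIdeal A ^ n)) hq
        (Ideal.Quotient.mkₐ_surjective 𝒪 _)
      exact hQ.of_isEquiv (baseChangeAlong_isEquiv_toAdic _ hq ρ r hr he) h1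

end Main

/-! ### Closure properties -/

theorem IsCoreCond.and {Q₁ Q₂ : AdicPred} (h₁ : IsCoreCond Q₁) (h₂ : IsCoreCond Q₂) :
    IsCoreCond (fun _A _ _ ρ => Q₁ ρ ∧ Q₂ ρ) where
  of_isEquiv := fun _ _ _ _ _ he h => ⟨h₁.of_isEquiv he h.1, h₂.of_isEquiv he h.2⟩
  baseChangeAlong := fun _ _ _ _ _ _ φ hφ _ h =>
    ⟨h₁.baseChangeAlong φ hφ h.1, h₂.baseChangeAlong φ hφ h.2⟩
  of_fibre := fun _ _ _ _ _ _ _ _ _ _ _ _ pA pB hpA hpB hinj r hr hA hB =>
    ⟨h₁.of_fibre pA pB hpA hpB hinj r hr hA.1 hB.1,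
      h₂.of_fibre pA pB hpA hpB hinj r hr hA.2 hB.2⟩
  of_quotients := fun _ _ _ _ _ r hr h =>
    ⟨h₁.of_quotients r hr fun n hn hloc hq => (h n hn hloc hq).1,
      h₂.of_quotients r hr fun n hn hloc hq => (h n hn hloc hq).2⟩

theorem IsCoreCond.forall {ι : Sort*} {Q : ι → AdicPred} (h : ∀ i, IsCoreCond (Q i)) :
    IsCoreCond (fun _A _ _ ρ => ∀ i, Q i ρ) where
  of_isEquiv := fun _ _ _ _ _ he hρ i => (h i).of_isEquiv he (hρ i)
  baseChangeAlong := fun _ _ _ _ _ _ φ hφ _ hρ i => (h i).baseChangeAlong φ hφ (hρ i)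
  of_fibre := fun _ _ _ _ _ _ _ _ _ _ _ _ pA pB hpA hpB hinj r hr hA hB i =>
    (h i).of_fibre pA pB hpA hpB hinj r hr (hA i) (hB i)
  of_quotients := fun _ _ _ _ _ r hr hρ i =>
    (h i).of_quotients r hr fun n hn hloc hq => hρ n hn hloc hq i

section Closure

variable (𝒪 : Type) [CommRing 𝒪] [IsLocalRing 𝒪]

/-- Deformation conditions are closed under conjunction. -/
theorem isDeformationCondition_and
    {𝒟₁ 𝒟₂ : ∀ ⦃A : Type⦄ [CommRing A] [IsLocalRing A] [Algebra 𝒪 A], GaloisRepAdic A → Prop}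
    (h₁ : GaloisRep.IsDeformationCondition 𝒪 𝒟₁) (h₂ : GaloisRep.IsDeformationCondition 𝒪 𝒟₂) :
    GaloisRep.IsDeformationCondition 𝒪 (fun _A _ _ _ ρ => 𝒟₁ ρ ∧ 𝒟₂ ρ) where
  of_isEquiv := fun _ _ _ _ hA _ _ he h => ⟨h₁.of_isEquiv hA he h.1, h₂.of_isEquiv hA he h.2⟩
  baseChangeAlong := fun _ _ _ _ _ _ _ _ hA hB φ hφ _ h =>
    ⟨h₁.baseChangeAlong hA hB φ hφ h.1, h₂.baseChangeAlong hA hB φ hφ h.2⟩
  of_baseChangeAlong_injective := fun _ _ _ _ _ _ _ _ hA hB φ hφ hinj _ h =>
    ⟨h₁.of_baseChangeAlong_injective hA hB φ hφ hinj h.1,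
      h₂.of_baseChangeAlong_injective hA hB φ hφ hinj h.2⟩
  of_fibreProduct := fun _ _ _ _ _ _ _ _ _ _ _ _ _ _ _ _ hA hB hC hP f g pA pB hpA hpB hfg hinj
      hsurj _ hρA hρB =>
    ⟨h₁.of_fibreProduct hA hB hC hP f g pA pB hpA hpB hfg hinj hsurj hρA.1 hρB.1,
      h₂.of_fibreProduct hA hB hC hP f g pA pB hpA hpB hfg hinj hsurj hρA.2 hρB.2⟩
  iff_forall_surjective := by
    intro A _ _ _ _ _ hloc hsurj ρ
    constructor
    · intro h B _ _ _ hB q hq hqs
      exact ⟨(h₁.iff_forall_surjective hloc hsurj ρ).mp h.1 hB q hq hqs,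
        (h₂.iff_forall_surjective hloc hsurj ρ).mp h.2 hB q hq hqs⟩
    · intro h
      exact ⟨(h₁.iff_forall_surjective hloc hsurj ρ).mpr fun B _ _ _ hB q hq hqs =>
          (h hB q hq hqs).1,
        (h₂.iff_forall_surjective hloc hsurj ρ).mpr fun B _ _ _ hB q hq hqs =>
          (h hB q hq hqs).2⟩

/-- Deformation conditions are closed under arbitrary intersections. -/
theorem isDeformationCondition_forall {ι : Sort*}
    {𝒟 : ι → ∀ ⦃A : Type⦄ [CommRing A] [IsLocalRing A] [Algebra 𝒪 A], GaloisRepAdic A → Prop}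
    (h : ∀ i, GaloisRep.IsDeformationCondition 𝒪 (𝒟 i)) :
    GaloisRep.IsDeformationCondition 𝒪 (fun _A _ _ _ ρ => ∀ i, 𝒟 i ρ) where
  of_isEquiv := fun _ _ _ _ hA _ _ he hρ i => (h i).of_isEquiv hA he (hρ i)
  baseChangeAlong := fun _ _ _ _ _ _ _ _ hA hB φ hφ _ hρ i =>
    (h i).baseChangeAlong hA hB φ hφ (hρ i)
  of_baseChangeAlong_injective := fun _ _ _ _ _ _ _ _ hA hB φ hφ hinj _ hρ i =>
    (h i).of_baseChangeAlong_injective hA hB φ hφ hinj (hρ i)
  of_fibreProduct := fun _ _ _ _ _ _ _ _ _ _ _ _ _ _ _ _ hA hB hC hP f g pA pB hpA hpB hfg hinj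
      hsurj _ hρA hρB i =>
    (h i).of_fibreProduct hA hB hC hP f g pA pB hpA hpB hfg hinj hsurj (hρA i) (hρB i)
  iff_forall_surjective := by
    intro A _ _ _ _ _ hloc hsurj ρ
    constructor
    · intro hρ B _ _ _ hB q hq hqs i
      exact ((h i).iff_forall_surjective hloc hsurj ρ).mp (hρ i) hB q hq hqs
    · intro hρ i
      exact ((h i).iff_forall_surjective hloc hsurj ρ).mpr fun B _ _ _ hB q hq hqs =>
        hρ hB q hq hqs i

end Closure

end Fermat.Agent.S59.H659
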