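import Fermat.Agent.S59.H659.SOMat
import Fermat.Prelude.Def_GaloisRep_StrictOrdinary

/-!
# S59, piece G3 (helper659): the strictly ordinary condition, from lines to matrices

`isStrictOrdinaryAt_toAdic_iff` : the representation `toAdic r hr` is strictly ordinary at `p`
(Prelude) iff `p` lies in the maximal ideal and for every place `𝔓` over `p` the matrix
representation `r` is conjugate to one in strictly ordinary standard form at `𝔓`.
-/

set_option autoImplicit false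
set_option linter.unusedSectionVars false
set_option linter.style.haveILetI false

namespace Fermat.Agent.S59.H659

open Fermat.Agent.S53 IsLocalRing Polynomial

section Basis

variable {A V : Type} [CommRing A] [AddCommGroup V] [Module A V]
  (b : Module.Basis (Fin 2) A V)

theorem mem_span_zero_iff (v : V) : v ∈ Submodule.span A {b 0} ↔ b.repr v 1 = 0 := by
  constructor
  · intro h
    obtain ⟨c, rfl⟩ := Submodule.mem_span_singleton.mp h
    simp
  · intro h
    have h1 := b.sum_repr v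
    rw [Fin.sum_univ_two, h, zero_smul, add_zero] at h1
    rw [← h1]
    exact Submodule.smul_mem _ _ (Submodule.mem_span_singleton_self _)

theorem repr_apply_one (f : V →ₗ[A] V) (v : V) :
    b.repr (f v) 1 = LinearMap.toMatrix b b f 1 0 * b.repr v 0 +
      LinearMap.toMatrix b b f 1 1 * b.repr v 1 := by
  have h := congrFun (LinearMap.toMatrix_mulVec_repr b b f v) 1
  rw [← h, Matrix.mulVec, dotProduct, Fin.sum_univ_two]

theorem map_mem_span_iff (f : V →ₗ[A] V) :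
    (∀ v ∈ Submodule.span A {b 0}, f v ∈ Submodule.span A {b 0}) ↔
      LinearMap.toMatrix b b f 1 0 = 0 := by
  constructor
  · intro h
    have h1 := (mem_span_zero_iff b _).mp (h (b 0) (Submodule.mem_span_singleton_self _))
    rwa [LinearMap.toMatrix_apply]
  · intro h v hv
    rw [mem_span_zero_iff, repr_apply_one, h, (mem_span_zero_iff b v).mp hv]
    simp

theorem sub_smul_mem_span_iff (f : V →ₗ[A] V) (z : A) :
    (∀ v, f v - z • v ∈ Submodule.span A {b 0}) ↔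
      LinearMap.toMatrix b b f 1 0 = 0 ∧ LinearMap.toMatrix b b f 1 1 = z := by
  constructor
  · intro h
    have h0 := (mem_span_zero_iff b _).mp (h (b 0))
    have h1 := (mem_span_zero_iff b _).mp (h (b 1))
    rw [map_sub, map_smul, Finsupp.sub_apply, Finsupp.smul_apply, repr_apply_one] at h0 h1
    simp only [Module.Basis.repr_self, Finsupp.single_eq_same, mul_one, smul_eq_mul] at h0 h1
    rw [Finsupp.single_eq_of_ne (by decide)] at h0 h1
    simp only [mul_zero, add_zero, sub_zero, zero_add] at h0 h1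
    exact ⟨h0, sub_eq_zero.mp h1⟩
  · rintro ⟨h0, h1⟩ v
    rw [mem_span_zero_iff, map_sub, map_smul, Finsupp.sub_apply, Finsupp.smul_apply,
      repr_apply_one, h0, h1]
    simp

theorem eq_smul_on_span_iff (f : V →ₗ[A] V) (x : A) :
    (∀ w ∈ Submodule.span A {b 0}, f w = x • w) ↔
      LinearMap.toMatrix b b f 1 0 = 0 ∧ LinearMap.toMatrix b b f 0 0 = x := by
  constructor
  · intro h
    have h1 := h (b 0) (Submodule.mem_span_singleton_self _)
    rw [LinearMap.toMatrix_apply, LinearMap.toMatrix_apply, h1]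
    simp
  · rintro ⟨h0, h1⟩ w hw
    obtain ⟨c, rfl⟩ := Submodule.mem_span_singleton.mp hw
    have h2 := b.sum_repr (f (b 0))
    rw [Fin.sum_univ_two, ← LinearMap.toMatrix_apply b b f 0 0,
      ← LinearMap.toMatrix_apply b b f 1 0, h0, h1, zero_smul, add_zero] at h2
    rw [map_smul, ← h2, smul_comm]

end Basis

section Bridge

variable {A : Type} [CommRing A] [IsLocalRing A]

/-- The matrix of `M` acting on `A²` in a basis `b` whose coordinate map is given by the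
invertible matrix `U`. -/
theorem toMatrix_matEnd (b : Module.Basis (Fin 2) A (Fin 2 → A)) (U : (M2 A)ˣ)
    (hU : ∀ v : Fin 2 → A, (U : M2 A).mulVec v = b.equivFun v) (M : M2 A) :
    LinearMap.toMatrix b b (matEnd A M) = (U : M2 A) * M * ((U⁻¹ : (M2 A)ˣ) : M2 A) := by
  refine mulVec_injective_M2 fun w => ?_
  have hw : w = b.equivFun (((U⁻¹ : (M2 A)ˣ) : M2 A).mulVec w) := by
    rw [← hU, Matrix.mulVec_mulVec, Units.mul_inv, Matrix.one_mulVec]
  have h1 := LinearMap.toMatrix_mulVec_repr b b (matEnd A M) (((U⁻¹ : (M2 A)ˣ) : M2 A).mulVec w)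
  have h2 : (b.repr (((U⁻¹ : (M2 A)ˣ) : M2 A).mulVec w) : Fin 2 → A) = w := hw.symm
  rw [h2] at h1
  rw [h1, ← Matrix.mulVec_mulVec, ← Matrix.mulVec_mulVec, hU]
  rfl

/-- The local part of the Prelude's `IsStrictOrdinaryAt`, in terms of a basis. -/
theorem soLoc_iff_basis (ρ : GaloisRepAdic A) (p : ℕ)
    (𝔓 : ValuationSubring (AlgebraicClosure ℚ)) :
    (∃ L : Submodule A ρ.V,
      (∃ b : Module.Basis (Fin 2) A ρ.V, L = Submodule.span A {b 0}) ∧
      (∀ σ ∈ 𝔓.decompositionSubgroup ℚ, ∀ v ∈ L, ρ.ρ σ v ∈ L) ∧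
      (∀ σ ∈ 𝔓.inertiaSubgroupIn ℚ, ∀ v : ρ.V, ρ.ρ σ v - v ∈ L) ∧
      (∀ σ ∈ 𝔓.decompositionSubgroup ℚ, ∃ x z : A,
        (∀ w ∈ L, ρ.ρ σ w = x • w) ∧ (∀ v : ρ.V, ρ.ρ σ v - z • v ∈ L) ∧
        ∀ (n a : ℕ), (∀ μ : AlgebraicClosure ℚ, μ ^ p ^ n = 1 → σ μ = μ ^ a) →
          x - (a : A) * z ∈ Ideal.span {((p ^ n : ℕ) : A)})) ↔
    ∃ b : Module.Basis (Fin 2) A ρ.V,
      (∀ σ ∈ 𝔓.decompositionSubgroup ℚ, LinearMap.toMatrix b b (ρ.ρ σ) 1 0 = 0 ∧
        CycCong p σ (LinearMap.toMatrix b b (ρ.ρ σ) 0 0) (LinearMap.toMatrix b b (ρ.ρ σ) 1 1)) ∧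
      (∀ σ ∈ 𝔓.inertiaSubgroupIn ℚ, LinearMap.toMatrix b b (ρ.ρ σ) 1 1 = 1) := by
  constructor
  · rintro ⟨L, ⟨b, rfl⟩, hD, hI, hx⟩
    refine ⟨b, fun σ hσ => ?_, fun σ hσ => ?_⟩
    · obtain ⟨x, z, h1, h2, h3⟩ := hx σ hσ
      obtain ⟨h10, h00⟩ := (eq_smul_on_span_iff b (ρ.ρ σ) x).mp h1
      obtain ⟨-, h11⟩ := (sub_smul_mem_span_iff b (ρ.ρ σ) z).mp h2
      refine ⟨h10, ?_⟩
      rw [h00, h11]
      exact h3
    · have h1 : ∀ v, ρ.ρ σ v - (1 : A) • v ∈ Submodule.span A {b 0} := fun v => by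
        rw [one_smul]; exact hI σ hσ v
      exact ((sub_smul_mem_span_iff b (ρ.ρ σ) 1).mp h1).2
  · rintro ⟨b, hD, hI⟩
    refine ⟨Submodule.span A {b 0}, ⟨b, rfl⟩, fun σ hσ => ?_, fun σ hσ v => ?_, fun σ hσ => ?_⟩
    · exact (map_mem_span_iff b (ρ.ρ σ)).mpr (hD σ hσ).1
    · have h1 := (sub_smul_mem_span_iff b (ρ.ρ σ) 1).mpr
        ⟨(hD σ (mem_decomposition_of_mem_inertia hσ)).1, hI σ hσ⟩ v
      rwa [one_smul] at h1
    · exact ⟨_, _, (eq_smul_on_span_iff b (ρ.ρ σ) _).mpr ⟨(hD σ hσ).1, rfl⟩,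
        (sub_smul_mem_span_iff b (ρ.ρ σ) _).mpr ⟨(hD σ hσ).1, rfl⟩, (hD σ hσ).2⟩

/-- **Strictly ordinary representations in terms of matrices.** -/
theorem isStrictOrdinaryAt_toAdic_iff (r : GQ →* M2 A) (hr : MatCont r) (p : ℕ) :
    (toAdic r hr).IsStrictOrdinaryAt p ↔
      (p : A) ∈ maximalIdeal A ∧ ∀ 𝔓 : ValuationSubring (AlgebraicClosure ℚ),
        𝔓.LiesOverPrime p → ∃ U : (M2 A)ˣ, IsSOStd 𝔓 p (cj U r) := by
  have key : ∀ (b : Module.Basis (Fin 2) A (Fin 2 → A)) (U : (M2 A)ˣ),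
      (∀ v : Fin 2 → A, (U : M2 A).mulVec v = b.equivFun v) →
      ∀ σ, LinearMap.toMatrix b b ((toAdic r hr).ρ σ) = cj U r σ := fun b U hU σ =>
    toMatrix_matEnd b U hU (r σ)
  unfold GaloisRepAdic.IsStrictOrdinaryAt
  refine and_congr Iff.rfl (forall_congr' fun 𝔓 => forall_congr' fun h𝔓 => ?_)
  rw [soLoc_iff_basis]
  constructor
  · rintro ⟨b, hD, hI⟩
    have hU : ∀ v : Fin 2 → A, ((equivUnit b.equivFun : (M2 A)ˣ) : M2 A).mulVec v =
        b.equivFun v := fun v => equivUnit_mulVec b.equivFun v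
    refine ⟨equivUnit b.equivFun, ⟨fun σ hσ => ?_, fun σ hσ => ?_⟩⟩
    · rw [← key b _ hU σ]
      exact hD σ hσ
    · rw [← key b _ hU σ]
      exact hI σ hσ
  · rintro ⟨U, hU⟩
    let b : Module.Basis (Fin 2) A (Fin 2 → A) := Module.Basis.ofEquivFun (unitEquiv U)
    have hb : ∀ v : Fin 2 → A, (U : M2 A).mulVec v = b.equivFun v := fun v => by
      rw [Module.Basis.equivFun_ofEquivFun]
      rfl
    refine ⟨b, fun σ hσ => ?_, fun σ hσ => ?_⟩
    · have h1 := hU.dec σ hσ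
      rw [← key b U hb σ] at h1
      exact h1
    · have h1 := hU.inert σ hσ
      rw [← key b U hb σ] at h1
      exact h1

end Bridge

end Fermat.Agent.S59.H659
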