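import Fermat.Agent.S53
import Fermat.Agent.S59.H247.TangentFinite
import Fermat.Agent.S59.H659.FlatClosed

/-!
# S59, piece MLT-D (helper659): the universal deformation rings EXIST

For a complete discrete valuation ring `𝒪` with finite residue field `k`, an odd prime `p`, an
absolutely irreducible `ρ̄ : G_ℚ → GL₂(k)` and each of the conditions used by S56 / S59, a
`GaloisRep.DeformationRingData 𝒪 ρ̄ 𝒟` exists as soon as `ρ̄` itself satisfies `𝒟`:

  S53 (`Fermat.Agent.S53.result`)  +  G3-core (`IsDeformationCondition`, this directory)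
    +  G3-TF (`TangentFinite`, helper247).

* `nonempty_deformationRingData_strictOrdinary_unipotent`, `…_flat_unipotent`:
  the two Taylor–Wiles conditions of the frozen statement S56
  (`strictOrdinaryCondition 𝒪 p S ∧ unipotent on Smin`, `flatCondition 𝒪 p S ∧ unipotent on Smin`);
* `nonempty_deformationRingData_strictOrdinaryCondition`, `…_minimalStrictOrdinaryCondition`,
  `…_flatCondition`, `…_minimalFlatCondition`: the conditions of the Prelude.
-/

set_option autoImplicit false
set_option linter.unusedSectionVars false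

namespace Fermat.Agent.S59.H659

open IsLocalRing

section Main

variable (𝒪 : Type) [CommRing 𝒪] [IsDomain 𝒪] [IsDiscreteValuationRing 𝒪]
  [IsAdicComplete (maximalIdeal 𝒪) 𝒪] [Finite (ResidueField 𝒪)]
  (ρbar : ResidualGaloisRep (ResidueField 𝒪)) (habs : ρbar.IsAbsolutelyIrreducible)
  (p : ℕ) (hp : p.Prime) (hp2 : p ≠ 2) (S Smin : Finset ℕ)

include habs hp

section StrictOrdinary

include hp2

/-- The universal deformation ring of the strictly ordinary Taylor–Wiles condition of S56. -/
theorem nonempty_deformationRingData_strictOrdinary_unipotent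
    (hbar : GaloisRep.strictOrdinaryCondition 𝒪 p S (GaloisRepAdic.ofResidualGaloisRep ρbar) ∧
      ∀ q ∈ Smin, q.Prime → q ≠ p →
        (GaloisRepAdic.ofResidualGaloisRep ρbar).IsUnipotentOnInertiaAt q) :
    Nonempty (GaloisRep.DeformationRingData 𝒪 ρbar (fun _A _ _ _ ρ =>
      GaloisRep.strictOrdinaryCondition 𝒪 p S ρ ∧
        ∀ q ∈ Smin, q.Prime → q ≠ p → ρ.IsUnipotentOnInertiaAt q)) :=
  Fermat.Agent.S53.result 𝒪 ρbar _ habs
    (isDeformationCondition_strictOrdinary_unipotent 𝒪 p hp hp2 S Smin) hbar
    (H247.tangentFinite_strictOrdinary_unipotent 𝒪 ρbar p S Smin)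

/-- The universal deformation ring of the strictly ordinary condition of the Prelude. -/
theorem nonempty_deformationRingData_strictOrdinaryCondition
    (hbar : GaloisRep.strictOrdinaryCondition 𝒪 p S (GaloisRepAdic.ofResidualGaloisRep ρbar)) :
    Nonempty (GaloisRep.DeformationRingData 𝒪 ρbar (GaloisRep.strictOrdinaryCondition 𝒪 p S)) :=
  Fermat.Agent.S53.result 𝒪 ρbar _ habs
    (isDeformationCondition_strictOrdinaryCondition 𝒪 p hp hp2 S) hbar
    (H247.tangentFinite_strictOrdinaryCondition 𝒪 ρbar p S)

/-- The universal deformation ring of the minimal strictly ordinary condition of the Prelude. -/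
theorem nonempty_deformationRingData_minimalStrictOrdinaryCondition
    (hbar : GaloisRep.minimalStrictOrdinaryCondition 𝒪 p S
      (GaloisRepAdic.ofResidualGaloisRep ρbar)) :
    Nonempty (GaloisRep.DeformationRingData 𝒪 ρbar
      (GaloisRep.minimalStrictOrdinaryCondition 𝒪 p S)) :=
  Fermat.Agent.S53.result 𝒪 ρbar _ habs
    (isDeformationCondition_minimalStrictOrdinaryCondition 𝒪 p hp hp2 S) hbar
    (H247.tangentFinite_minimalStrictOrdinaryCondition 𝒪 ρbar p S)

end StrictOrdinary

section Flat

/-- The universal deformation ring of the flat Taylor–Wiles condition of S56. -/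
theorem nonempty_deformationRingData_flat_unipotent
    (hbar : GaloisRep.flatCondition 𝒪 p S (GaloisRepAdic.ofResidualGaloisRep ρbar) ∧
      ∀ q ∈ Smin, q.Prime → q ≠ p →
        (GaloisRepAdic.ofResidualGaloisRep ρbar).IsUnipotentOnInertiaAt q) :
    Nonempty (GaloisRep.DeformationRingData 𝒪 ρbar (fun _A _ _ _ ρ =>
      GaloisRep.flatCondition 𝒪 p S ρ ∧
        ∀ q ∈ Smin, q.Prime → q ≠ p → ρ.IsUnipotentOnInertiaAt q)) :=
  Fermat.Agent.S53.result 𝒪 ρbar _ habs
    (isDeformationCondition_flat_unipotent_closed 𝒪 p hp S Smin) hbar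
    (H247.tangentFinite_flat_unipotent 𝒪 ρbar p S Smin)

/-- The universal deformation ring of the flat condition of the Prelude. -/
theorem nonempty_deformationRingData_flatCondition
    (hbar : GaloisRep.flatCondition 𝒪 p S (GaloisRepAdic.ofResidualGaloisRep ρbar)) :
    Nonempty (GaloisRep.DeformationRingData 𝒪 ρbar (GaloisRep.flatCondition 𝒪 p S)) :=
  Fermat.Agent.S53.result 𝒪 ρbar _ habs
    (isDeformationCondition_flatCondition_closed 𝒪 p hp S) hbar
    (H247.tangentFinite_flatCondition 𝒪 ρbar p S)

/-- The universal deformation ring of the minimal flat condition of the Prelude. -/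
theorem nonempty_deformationRingData_minimalFlatCondition
    (hbar : GaloisRep.minimalFlatCondition 𝒪 p S (GaloisRepAdic.ofResidualGaloisRep ρbar)) :
    Nonempty (GaloisRep.DeformationRingData 𝒪 ρbar (GaloisRep.minimalFlatCondition 𝒪 p S)) :=
  Fermat.Agent.S53.result 𝒪 ρbar _ habs
    (isDeformationCondition_minimalFlatCondition_closed 𝒪 p hp S) hbar
    (H247.tangentFinite_minimalFlatCondition 𝒪 ρbar p S)

end Flat

end Main

end Fermat.Agent.S59.H659
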