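import Fermat.Agent.S59.H659.Cyclo

/-!
# S59, piece G3 (helper659): the strictly ordinary condition, matrix level

`IsSOStd 𝔓 p r` : the matrix representation `r` is in "strictly ordinary standard form" at the
place `𝔓` over `p`: the decomposition group acts by upper triangular matrices
`[[x, *], [0, z]]` with `x = ε z` (`ε` the `p`-adic cyclotomic character) and `z = 1` on
inertia.

Main results, for an odd prime `p`:

* `exists_isSOStd_of_fibre` : if the push-forwards of `r` along a jointly injective pair of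
  local homomorphisms of Artinian local rings are conjugate to representations in standard form,
  then so is `r`;
* `exists_isSOStd_of_quotients` : the same for the quotients `A ⧸ 𝔪ⁿ` of a Noetherian local ring.

The point is that the stable line is unique: it is spanned by a column of `r σ₀ - 1`, where
`σ₀` is an element of the inertia group on which the cyclotomic character is not `1` modulo `p`.
-/

set_option autoImplicit false
set_option linter.unusedSectionVars false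
set_option linter.style.haveILetI false

namespace Fermat.Agent.S59.H659

open Fermat.Agent.S53 IsLocalRing Polynomial

/-- Strictly ordinary standard form at the place `𝔓`. -/
structure IsSOStd (𝔓 : ValuationSubring (AlgebraicClosure ℚ)) (p : ℕ) {A : Type} [CommRing A]
    (r : GQ →* M2 A) : Prop where
  dec : ∀ σ ∈ 𝔓.decompositionSubgroup ℚ, r σ 1 0 = 0 ∧ CycCong p σ (r σ 0 0) (r σ 1 1)
  inert : ∀ σ ∈ 𝔓.inertiaSubgroupIn ℚ, r σ 1 1 = 1

theorem mem_decomposition_of_mem_inertia {𝔓 : ValuationSubring (AlgebraicClosure ℚ)} {σ : GQ}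
    (hσ : σ ∈ 𝔓.inertiaSubgroupIn ℚ) : σ ∈ 𝔓.decompositionSubgroup ℚ := by
  obtain ⟨τ, -, rfl⟩ := hσ
  exact τ.2

section Conj

variable {A B : Type} [CommRing A] [CommRing B]

/-- Conjugation of a matrix representation by a unit (over any commutative ring; it is
`S53.conjRep` over local rings). -/
noncomputable def cj (P : (M2 A)ˣ) (r : GQ →* M2 A) : GQ →* M2 A where
  toFun σ := (P : M2 A) * r σ * ((P⁻¹ : (M2 A)ˣ) : M2 A)
  map_one' := by simp
  map_mul' σ τ := by
    rw [map_mul]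
    simp only [mul_assoc]
    congr 2
    rw [← mul_assoc (((P⁻¹ : (M2 A)ˣ) : M2 A)), Units.inv_mul, one_mul]

theorem cj_apply (P : (M2 A)ˣ) (r : GQ →* M2 A) (σ : GQ) :
    cj P r σ = (P : M2 A) * r σ * ((P⁻¹ : (M2 A)ˣ) : M2 A) := rfl

theorem cj_eq_conjRep [IsLocalRing A] (P : (M2 A)ˣ) (r : GQ →* M2 A) : cj P r = conjRep P r :=
  MonoidHom.ext fun σ => by rw [cj_apply, conjRep_apply]

theorem cj_mul_eq (P : (M2 A)ˣ) (r : GQ →* M2 A) (σ : GQ) :
    (P : M2 A) * r σ = cj P r σ * P := by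
  rw [cj_apply, mul_assoc, Units.inv_mul, mul_one]

theorem cj_cj (P Q : (M2 A)ˣ) (r : GQ →* M2 A) : cj P (cj Q r) = cj (P * Q) r := by
  refine MonoidHom.ext fun σ => ?_
  simp only [cj_apply, Units.val_mul, mul_inv_rev, mul_assoc]

theorem unit_inv_map (φ : A →+* B) (P : (M2 A)ˣ) :
    (((P⁻¹ : (M2 A)ˣ) : M2 A)).map φ = ((Units.map φ.mapMatrix.toMonoidHom P)⁻¹ : (M2 B)ˣ) := by
  rw [← map_inv]
  rfl

theorem mapRep_cj (φ : A →+* B) (P : (M2 A)ˣ) (r : GQ →* M2 A) :
    mapRep φ (cj P r) = cj (Units.map φ.mapMatrix.toMonoidHom P) (mapRep φ r) := by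
  refine MonoidHom.ext fun σ => ?_
  rw [mapRep_apply, cj_apply, cj_apply, Matrix.map_mul, Matrix.map_mul, mapRep_apply,
    unit_inv_map]
  rfl

end Conj

section Descent

variable {𝔓 : ValuationSubring (AlgebraicClosure ℚ)} {p : ℕ}

/-- Standard form descends along jointly injective pairs. -/
theorem IsSOStd.of_fibre (hp : p ≠ 0) {P A B : Type} [CommRing P] [CommRing A] [CommRing B]
    (pA : P →+* A) (pB : P →+* B) (hinj : Function.Injective (fun x => (pA x, pB x)))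
    (hpA : IsNilpotent (p : A)) (hpB : IsNilpotent (p : B)) {r : GQ →* M2 P}
    (hA : IsSOStd 𝔓 p (mapRep pA r)) (hB : IsSOStd 𝔓 p (mapRep pB r)) : IsSOStd 𝔓 p r where
  dec := by
    intro σ hσ
    obtain ⟨hA1, hA2⟩ := hA.dec σ hσ
    obtain ⟨hB1, hB2⟩ := hB.dec σ hσ
    rw [mapRep_apply_apply] at hA1 hB1
    rw [mapRep_apply_apply, mapRep_apply_apply] at hA2 hB2
    exact ⟨eq_zero_of_fibre pA pB hinj hA1 hB1, CycCong.of_fibre hp pA pB hinj hpA hpB hA2 hB2⟩
  inert := by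
    intro σ hσ
    have hA1 := hA.inert σ hσ
    have hB1 := hB.inert σ hσ
    rw [mapRep_apply_apply] at hA1 hB1
    exact eq_of_fibre pA pB hinj (by rw [hA1, map_one]) (by rw [hB1, map_one])

/-- Standard form descends from the quotients `A ⧸ 𝔪ⁿ`. -/
theorem IsSOStd.of_quotients {A : Type} [CommRing A] [IsLocalRing A] [IsNoetherianRing A]
    {r : GQ →* M2 A}
    (h : ∀ n : ℕ, n ≠ 0 → IsSOStd 𝔓 p (mapRep (Ideal.Quotient.mk (maximalIdeal A ^ n)) r)) :
    IsSOStd 𝔓 p r where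
  dec := by
    intro σ hσ
    refine ⟨eq_zero_of_quotients fun n hn => ?_, CycCong.of_quotients fun n hn => ?_⟩
    · have := ((h n hn).dec σ hσ).1
      rwa [mapRep_apply_apply] at this
    · have := ((h n hn).dec σ hσ).2
      rwa [mapRep_apply_apply, mapRep_apply_apply] at this
  inert := by
    intro σ hσ
    refine eq_of_quotients fun n hn => ?_
    have := (h n hn).inert σ hσ
    rw [mapRep_apply_apply] at this
    rw [this, map_one]

end Descent

section Triangular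

variable {A : Type} [CommRing A]

/-- Conjugation by an invertible upper triangular matrix preserves upper triangular matrices and
their diagonal entries. -/
theorem conj_triangular (T : (M2 A)ˣ) (hT : (T : M2 A) 1 0 = 0) (M M' : M2 A)
    (h : (T : M2 A) * M' = M * T) (hM : M 1 0 = 0) :
    M' 1 0 = 0 ∧ M' 0 0 = M 0 0 ∧ M' 1 1 = M 1 1 := by
  have hdet : IsUnit ((T : M2 A).det) := (Matrix.isUnit_iff_isUnit_det _).1 T.isUnit
  rw [Matrix.det_fin_two, hT, mul_zero, sub_zero] at hdet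
  have h0 : IsUnit ((T : M2 A) 0 0) := isUnit_of_mul_isUnit_left hdet
  have h1 : IsUnit ((T : M2 A) 1 1) := isUnit_of_mul_isUnit_right hdet
  have e10 := congrFun (congrFun h 1) 0
  have e11 := congrFun (congrFun h 1) 1
  have e00 := congrFun (congrFun h 0) 0
  simp only [Matrix.mul_apply, Fin.sum_univ_two, hT, hM, zero_mul, mul_zero, zero_add,
    add_zero] at e10 e11 e00
  have k10 : M' 1 0 = 0 := (h1.mul_right_eq_zero).mp e10
  refine ⟨k10, ?_, ?_⟩
  · rw [k10, mul_zero, add_zero] at e00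
    exact h0.mul_left_cancel (by rw [e00, mul_comm])
  · exact h1.mul_left_cancel (by rw [e11, mul_comm])

variable {𝔓 : ValuationSubring (AlgebraicClosure ℚ)} {p : ℕ}

/-- Standard form is preserved by conjugation with invertible upper triangular matrices. -/
theorem IsSOStd.conj_triangular {r : GQ →* M2 A} (h : IsSOStd 𝔓 p r) (T : (M2 A)ˣ)
    (hT : (T : M2 A) 1 0 = 0) : IsSOStd 𝔓 p (cj T⁻¹ r) := by
  have key : ∀ σ : GQ, r σ 1 0 = 0 → cj T⁻¹ r σ 1 0 = 0 ∧
      cj T⁻¹ r σ 0 0 = r σ 0 0 ∧ cj T⁻¹ r σ 1 1 = r σ 1 1 := by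
    intro σ hσ
    refine Fermat.Agent.S59.H659.conj_triangular T hT (r σ) (cj T⁻¹ r σ) ?_ hσ
    rw [cj_apply, inv_inv, ← mul_assoc, ← mul_assoc, Units.mul_inv, one_mul]
  constructor
  · intro σ hσ
    obtain ⟨h1, h2⟩ := h.dec σ hσ
    obtain ⟨k1, k2, k3⟩ := key σ h1
    exact ⟨k1, by rw [k2, k3]; exact h2⟩
  · intro σ hσ
    obtain ⟨h1, -⟩ := h.dec σ (mem_decomposition_of_mem_inertia hσ)
    obtain ⟨-, -, k3⟩ := key σ h1
    rw [k3]
    exact h.inert σ hσ

end Triangular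

section Canonical

variable {R : Type} [CommRing R] [IsLocalRing R]

/-- A matrix over a local ring whose trace is a unit has a column which is the first column of an
invertible matrix. -/
theorem exists_unit_col (N : M2 R) (hN : IsUnit N.trace) :
    ∃ (Q : (M2 R)ˣ) (j : Fin 2), ∀ i, (Q : M2 R) i 0 = N i j := by
  rw [Matrix.trace_fin_two] at hN
  rcases IsLocalRing.isUnit_or_isUnit_of_isUnit_add hN with h | h
  · have hdet : IsUnit (!![N 0 0, 0; N 1 0, 1] : M2 R).det := by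
      rw [Matrix.det_fin_two_of]
      simpa using h
    obtain ⟨Q, hQ⟩ := (Matrix.isUnit_iff_isUnit_det _).2 hdet
    refine ⟨Q, 0, fun i => ?_⟩
    rw [hQ]
    fin_cases i <;> rfl
  · have hdet : IsUnit (!![N 0 1, 1; N 1 1, 0] : M2 R).det := by
      rw [Matrix.det_fin_two_of]
      simpa using h
    obtain ⟨Q, hQ⟩ := (Matrix.isUnit_iff_isUnit_det _).2 hdet
    refine ⟨Q, 1, fun i => ?_⟩
    rw [hQ]
    fin_cases i <;> rfl

end Canonical

section Main

variable {𝔓 : ValuationSubring (AlgebraicClosure ℚ)} {p : ℕ}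

/-- If `a ≢ 1 mod p` and `p` lies in the maximal ideal, then `a - 1` is a unit. -/
theorem isUnit_natCast_sub_one {A : Type} [CommRing A] [IsLocalRing A] (hp : p.Prime)
    (hpA : (p : A) ∈ maximalIdeal A) {a : ℕ} (ha : ¬ a ≡ 1 [MOD p]) :
    IsUnit ((a : A) - 1) := by
  have h1 : ¬ (p : ℤ) ∣ (a : ℤ) - 1 := by
    intro h
    apply ha
    have := (Int.modEq_iff_dvd (n := (p : ℤ)) (a := 1) (b := (a : ℤ))).mpr h
    exact (Int.natCast_modEq_iff.mp (by exact_mod_cast this.symm))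
  have h2 : IsCoprime ((a : ℤ) - 1) (p : ℤ) :=
    (IsCoprime.symm ((Nat.prime_iff_prime_int.mp hp).coprime_iff_not_dvd.mpr h1))
  obtain ⟨s, t, hst⟩ := h2
  have h3 : (s : A) * ((a : A) - 1) + (t : A) * (p : A) = 1 := by
    have := congrArg (Int.cast : ℤ → A) hst
    push_cast at this
    exact this
  have h4 : IsUnit ((s : A) * ((a : A) - 1)) := by
    have h5 : (s : A) * ((a : A) - 1) = 1 - (t : A) * (p : A) := eq_sub_of_add_eq h3
    rw [h5]
    by_contra hcon
    have h6 : 1 - (t : A) * (p : A) ∈ maximalIdeal A := hcon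
    have h7 : (t : A) * (p : A) ∈ maximalIdeal A := Ideal.mul_mem_left _ _ hpA
    have h8 : (1 : A) ∈ maximalIdeal A := by
      have := Ideal.add_mem _ h6 h7
      rwa [sub_add_cancel] at this
    exact (Ideal.ne_top_iff_one _).mp Ideal.IsPrime.ne_top' h8
  exact isUnit_of_mul_isUnit_right h4

/-- The trace of `r σ₀ - 1` is a unit when `r` is conjugate to a representation in standard form
and the cyclotomic character of `σ₀ ∈ I` is not `1` modulo `p`. -/
theorem isUnit_trace_sub_one {A : Type} [CommRing A] [IsLocalRing A] (hp : p.Prime)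
    (hpA : (p : A) ∈ maximalIdeal A) {r : GQ →* M2 A} (P : (M2 A)ˣ)
    (h : IsSOStd 𝔓 p (cj P r)) {σ₀ : GQ} (hσ₀ : σ₀ ∈ 𝔓.inertiaSubgroupIn ℚ)
    (hσ₀' : ∀ a : ℕ, IsCycExp p σ₀ a → ¬ a ≡ 1 [MOD p]) : IsUnit (r σ₀ - 1).trace := by
  obtain ⟨a, ha⟩ := exists_isCycExp p hp.ne_zero σ₀
  have h1 := (h.dec σ₀ (mem_decomposition_of_mem_inertia hσ₀)).2 1 a (by rwa [pow_one])
  have h2 := h.inert σ₀ hσ₀
  have htr : (r σ₀ - 1).trace = cj P r σ₀ 0 0 - 1 := by
    have h3 : (cj P r σ₀).trace = (r σ₀).trace := by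
      rw [cj_apply]
      exact Matrix.trace_units_conj P (r σ₀)
    rw [Matrix.trace_sub, ← h3, Matrix.trace_fin_two, Matrix.trace_fin_two, h2]
    simp only [Matrix.one_apply_eq]
    ring
  rw [htr]
  rw [h2, mul_one, pow_one] at h1
  have h4 : cj P r σ₀ 0 0 - (a : A) ∈ maximalIdeal A := by
    obtain ⟨c, hc⟩ := Ideal.mem_span_singleton'.mp h1
    rw [← hc]
    exact Ideal.mul_mem_left _ _ hpA
  have h5 : IsUnit ((a : A) - 1) := isUnit_natCast_sub_one hp hpA (hσ₀' a ha)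
  have h6 : cj P r σ₀ 0 0 - 1 = ((a : A) - 1) + (cj P r σ₀ 0 0 - (a : A)) := by ring
  rw [h6]
  by_contra hcon
  have h7 : ((a : A) - 1) + (cj P r σ₀ 0 0 - (a : A)) ∈ maximalIdeal A := hcon
  have h8 : (a : A) - 1 ∈ maximalIdeal A := by
    have := Ideal.sub_mem _ h7 h4
    rwa [add_sub_cancel_right] at this
  exact h8 h5

/-- **The stable line is canonical.** Let `Q` be an invertible matrix whose first column is a
column of `r σ₀ - 1`, `σ₀` in the inertia group. If the push-forward of `r` along `φ` is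
conjugate to a representation in standard form, then the push-forward of `Q⁻¹ r Q` is in standard
form. -/
theorem isSOStd_mapRep_conj {R A : Type} [CommRing R] [CommRing A] (φ : R →+* A)
    {r : GQ →* M2 R} {σ₀ : GQ} (hσ₀ : σ₀ ∈ 𝔓.inertiaSubgroupIn ℚ) (Q : (M2 R)ˣ) (j : Fin 2)
    (hQ : ∀ i, (Q : M2 R) i 0 = (r σ₀ - 1) i j) (P : (M2 A)ˣ)
    (h : IsSOStd 𝔓 p (cj P (mapRep φ r))) :
    IsSOStd 𝔓 p (mapRep φ (cj Q⁻¹ r)) := by
  set Qφ : (M2 A)ˣ := Units.map φ.mapMatrix.toMonoidHom Q with hQφ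
  set T : (M2 A)ˣ := P * Qφ with hT
  have h10 := (h.dec σ₀ (mem_decomposition_of_mem_inertia hσ₀)).1
  have h11 := h.inert σ₀ hσ₀
  -- `P * φ (r σ₀ - 1) = (r' σ₀ - 1) * P`
  have hconj : (P : M2 A) * (mapRep φ r σ₀ - 1) = (cj P (mapRep φ r) σ₀ - 1) * P := by
    rw [mul_sub, sub_mul, mul_one, one_mul, cj_mul_eq]
  have hrow : ∀ k, ((P : M2 A) * (mapRep φ r σ₀ - 1)) 1 k = 0 := by
    intro k
    rw [hconj, Matrix.mul_apply, Fin.sum_univ_two, Matrix.sub_apply, Matrix.sub_apply, h10, h11]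
    simp
  have hT10 : (T : M2 A) 1 0 = 0 := by
    have h1 : ∀ i, (Qφ : M2 A) i 0 = (mapRep φ r σ₀ - 1) i j := by
      intro i
      show φ ((Q : M2 R) i 0) = _
      rw [hQ i, Matrix.sub_apply, Matrix.sub_apply, map_sub, mapRep_apply_apply]
      congr 1
      by_cases hij : i = j
      · subst hij; simp
      · simp [hij]
    have h2 := hrow j
    rw [Matrix.mul_apply, Fin.sum_univ_two] at h2
    rw [hT, Units.val_mul, Matrix.mul_apply, Fin.sum_univ_two, h1 0, h1 1]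
    exact h2
  have h3 := h.conj_triangular T hT10
  rw [cj_cj] at h3
  have h4 : T⁻¹ * P = Qφ⁻¹ := by
    rw [hT, mul_inv_rev, inv_mul_cancel_right]
  rw [h4] at h3
  rw [mapRep_cj, map_inv]
  exact h3

/-- **Strictly ordinary descent along jointly injective pairs.** -/
theorem exists_isSOStd_of_fibre (hp : p.Prime) (hp2 : p ≠ 2) (h𝔓 : 𝔓.LiesOverPrime p)
    {P A B : Type} [CommRing P] [IsLocalRing P] [CommRing A] [IsLocalRing A] [CommRing B]
    [IsLocalRing B] [IsArtinianRing A] [IsArtinianRing B]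
    (pA : P →+* A) (pB : P →+* B) (hpA : IsLocalHom pA)
    (hinj : Function.Injective (fun x => (pA x, pB x)))
    (hA : (p : A) ∈ maximalIdeal A) (hB : (p : B) ∈ maximalIdeal B) (r : GQ →* M2 P)
    (h1 : ∃ U : (M2 A)ˣ, IsSOStd 𝔓 p (cj U (mapRep pA r)))
    (h2 : ∃ U : (M2 B)ˣ, IsSOStd 𝔓 p (cj U (mapRep pB r))) :
    ∃ U : (M2 P)ˣ, IsSOStd 𝔓 p (cj U r) := by
  obtain ⟨σ₀, hσ₀, hσ₀'⟩ := exists_inertia_cycExp_ne_one p hp hp2 𝔓 h𝔓
  obtain ⟨UA, hUA⟩ := h1
  obtain ⟨UB, hUB⟩ := h2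
  have htr : IsUnit (r σ₀ - 1).trace := by
    have h3 := isUnit_trace_sub_one hp hA UA hUA hσ₀ hσ₀'
    have h4 : (mapRep pA r σ₀ - 1).trace = pA (r σ₀ - 1).trace := by
      rw [Matrix.trace_fin_two, Matrix.trace_fin_two]
      simp
    rw [h4] at h3
    exact isUnit_of_map_unit pA _ h3
  obtain ⟨Q, j, hQ⟩ := exists_unit_col (r σ₀ - 1) htr
  exact ⟨Q⁻¹, IsSOStd.of_fibre hp.ne_zero pA pB hinj (isNilpotent_natCast_of_mem hA)
    (isNilpotent_natCast_of_mem hB) (isSOStd_mapRep_conj pA hσ₀ Q j hQ UA hUA)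
    (isSOStd_mapRep_conj pB hσ₀ Q j hQ UB hUB)⟩

/-- **Strictly ordinary descent from the quotients `A ⧸ 𝔪ⁿ`.** -/
theorem exists_isSOStd_of_quotients (hp : p.Prime) (hp2 : p ≠ 2) (h𝔓 : 𝔓.LiesOverPrime p)
    {A : Type} [CommRing A] [IsLocalRing A] [IsNoetherianRing A] (r : GQ →* M2 A)
    (hloc : IsLocalRing (A ⧸ maximalIdeal A ^ 1))
    (hA : (p : A ⧸ maximalIdeal A ^ 1) ∈ maximalIdeal (A ⧸ maximalIdeal A ^ 1))
    (h : ∀ n : ℕ, n ≠ 0 → ∃ U : (M2 (A ⧸ maximalIdeal A ^ n))ˣ,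
      IsSOStd 𝔓 p (cj U (mapRep (Ideal.Quotient.mk (maximalIdeal A ^ n)) r))) :
    ∃ U : (M2 A)ˣ, IsSOStd 𝔓 p (cj U r) := by
  obtain ⟨σ₀, hσ₀, hσ₀'⟩ := exists_inertia_cycExp_ne_one p hp hp2 𝔓 h𝔓
  have htr : IsUnit (r σ₀ - 1).trace := by
    obtain ⟨U1, hU1⟩ := h 1 one_ne_zero
    have h3 := isUnit_trace_sub_one hp hA U1 hU1 hσ₀ hσ₀'
    have h4 : (mapRep (Ideal.Quotient.mk (maximalIdeal A ^ 1)) r σ₀ - 1).trace =
        Ideal.Quotient.mk (maximalIdeal A ^ 1) (r σ₀ - 1).trace := by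
      rw [Matrix.trace_fin_two, Matrix.trace_fin_two]
      simp
    rw [h4] at h3
    haveI : IsLocalHom (Ideal.Quotient.mk (maximalIdeal A ^ 1)) :=
      IsLocalHom.of_surjective _ Ideal.Quotient.mk_surjective
    exact isUnit_of_map_unit (Ideal.Quotient.mk (maximalIdeal A ^ 1)) _ h3
  obtain ⟨Q, j, hQ⟩ := exists_unit_col (r σ₀ - 1) htr
  refine ⟨Q⁻¹, IsSOStd.of_quotients fun n hn => ?_⟩
  obtain ⟨Un, hUn⟩ := h n hn
  exact isSOStd_mapRep_conj _ hσ₀ Q j hQ Un hUn

end Main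

end Fermat.Agent.S59.H659
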