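import Fermat.Agent.S59.H659.SOBridge

/-!
# S59, piece G3 (helper659): the strictly ordinary condition

`isCoreCond_isStrictOrdinaryAt p` : for an odd prime `p`, being strictly ordinary at `p`
(Prelude: `GaloisRepAdic.IsStrictOrdinaryAt`) is a deformation condition.
-/

set_option autoImplicit false
set_option linter.unusedSectionVars false
set_option linter.style.haveILetI false

namespace Fermat.Agent.S59.H659

open Fermat.Agent.S53 Fermat.Agent.S56.H966 IsLocalRing Polynomial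

/-- Being strictly ordinary at an odd prime `p` is a deformation condition. -/
theorem isCoreCond_isStrictOrdinaryAt (p : ℕ) (hp : p.Prime) (hp2 : p ≠ 2) :
    IsCoreCond (fun _A _ _ ρ => ρ.IsStrictOrdinaryAt p) where
  of_isEquiv := fun _ _ _ _ _ he h => isStrictOrdinaryAt_of_isEquiv he h
  baseChangeAlong := fun _ _ _ _ _ _ φ hφ _ h => isStrictOrdinaryAt_baseChangeAlong φ hφ h
  of_fibre := by
    intro P A B _ _ _ _ _ _ _ _ _ pA pB hpA hpB hinj r hr hA hB
    rw [isStrictOrdinaryAt_toAdic_iff] at hA hB ⊢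
    refine ⟨natCast_mem_maximalIdeal_of_map pA hA.1, fun 𝔓 h𝔓 => ?_⟩
    exact exists_isSOStd_of_fibre hp hp2 h𝔓 pA pB hpA hinj hA.1 hB.1 r (hA.2 𝔓 h𝔓) (hB.2 𝔓 h𝔓)
  of_quotients := by
    intro A _ _ _ _ r hr h
    rw [isStrictOrdinaryAt_toAdic_iff]
    have hloc : ∀ n : ℕ, n ≠ 0 → IsLocalRing (A ⧸ maximalIdeal A ^ n) := fun n hn =>
      isLocalRing_quotient _ (maximalIdeal_pow_ne_top n hn)
    have hq : ∀ n : ℕ, n ≠ 0 → IsLocalHom (Ideal.Quotient.mk (maximalIdeal A ^ n)) :=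
      fun n hn =>
        haveI := hloc n hn
        IsLocalHom.of_surjective _ Ideal.Quotient.mk_surjective
    have key : ∀ n : ℕ, ∀ hn : n ≠ 0,
        ((p : A ⧸ maximalIdeal A ^ n) ∈ @maximalIdeal (A ⧸ maximalIdeal A ^ n) _ (hloc n hn)) ∧
        ∀ 𝔓 : ValuationSubring (AlgebraicClosure ℚ), 𝔓.LiesOverPrime p →
          ∃ U : (M2 (A ⧸ maximalIdeal A ^ n))ˣ,
            IsSOStd 𝔓 p (cj U (mapRep (Ideal.Quotient.mk (maximalIdeal A ^ n)) r)) := by
      intro n hn
      have h1 := h n hn (hloc n hn) (hq n hn)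
      rwa [@isStrictOrdinaryAt_toAdic_iff _ _ (hloc n hn)] at h1
    refine ⟨?_, fun 𝔓 h𝔓 => ?_⟩
    · exact @natCast_mem_maximalIdeal_of_map _ _ _ _ _ (hloc 1 one_ne_zero)
        (Ideal.Quotient.mk (maximalIdeal A ^ 1)) p (key 1 one_ne_zero).1
    · exact exists_isSOStd_of_quotients hp hp2 h𝔓 r (hloc 1 one_ne_zero) (key 1 one_ne_zero).1
        fun n hn => (key n hn).2 𝔓 h𝔓

end Fermat.Agent.S59.H659
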